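/-
S48 (Deligne-Serre), node B = `EisensteinOne`.  Definitions.   Sub-architect: helper297.
FROZEN INTERFACE (tell helper297 before touching).

Weight one Eisenstein series of level `N` through the Weierstrass zeta function:
* `zt τ u`   : `ζ(u; ℤτ+ℤ) = 1/u + ∑_{w ≠ 0} (1/(u-w) + 1/w + u/w²)` (absolutely convergent);
* `FF τ u`   : `π cot πu + ∑_{m ≥ 1} (π cot π(u - mτ) + π cot π(u + mτ))`;
* `zt τ u = u G₂(τ) + FF τ u`  (row summation, `G₂` is Mathlib's `EisensteinSeries.G2`);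
* `Zv N v τ = FF τ ((v₀ τ + v₁)/N) + 2πi v₀/N = ζ(u_v) - η(N u_v)/N` is modular of weight one:
  `Zv N v ∣[1] γ = Zv N (v γ)`.
-/
import Mathlib

set_option autoImplicit false

noncomputable section

namespace Fermat.Agent.S48.B

open UpperHalfPlane hiding I
open Complex
open scoped Real

/-- `x₀ τ + x₁`. -/
def lin (τ : ℍ) (x : Fin 2 → ℤ) : ℂ := x 0 * τ + x 1

/-- The summand of the Weierstrass zeta function (the term `x = 0` is `1/u`). -/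
def ztTerm (τ : ℍ) (u : ℂ) (x : Fin 2 → ℤ) : ℂ :=
  if x = 0 then 1 / u else 1 / (u - lin τ x) + 1 / lin τ x + u / lin τ x ^ 2

/-- The Weierstrass zeta function of the lattice `ℤτ + ℤ`. -/
def zt (τ : ℍ) (u : ℂ) : ℂ := ∑' x : Fin 2 → ℤ, ztTerm τ u x

/-- `π cot (π w)`. -/
def pcot (w : ℂ) : ℂ := π * Complex.cot (π * w)

/-- `π cot π(u - (m+1)τ) + π cot π(u + (m+1)τ)`. -/
def cotPair (τ : ℍ) (u : ℂ) (m : ℕ) : ℂ := pcot (u - (m + 1) * τ) + pcot (u + (m + 1) * τ)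

/-- `π cot πu + ∑_{m ≥ 1} (π cot π(u - mτ) + π cot π(u + mτ))`. -/
def FF (τ : ℍ) (u : ℂ) : ℂ := pcot u + ∑' m : ℕ, cotPair τ u m

/-- The weight one Eisenstein series of level `N` attached to `v ∈ ℤ²`. -/
def Zv (N : ℕ) (v : Fin 2 → ℤ) (τ : ℍ) : ℂ := FF τ (lin τ v / N) + 2 * π * I * v 0 / N

/-- `x / (1 - x) = ∑_{k ≥ 1} x ^ k`. -/
def lam (x : ℂ) : ℂ := x / (1 - x)

/-- `∑_{m ≥ 1} (λ(ζ⁻¹ t^(Nm - a)) - λ(ζ t^(Nm + a)))`. -/
def lamSum (N a : ℕ) (ζ t : ℂ) : ℂ :=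
  ∑' m : ℕ, (lam (ζ⁻¹ * t ^ (N * (m + 1) - a)) - lam (ζ * t ^ (N * (m + 1) + a)))

/-- The `q`-expansion coefficients of `Zv N ![0, b]`. -/
def cZ (N : ℕ) (b : ℤ) (n : ℕ) : ℂ :=
  if n = 0 then pcot (b / N)
  else 2 * π * I * ∑ k ∈ n.divisors, ((cexp (2 * π * I * b / N))⁻¹ ^ k - cexp (2 * π * I * b / N) ^ k)

end Fermat.Agent.S48.B
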