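/-
S48 (Deligne-Serre), node B = `EisensteinOne`.  TASK B-17.   Sub-architect: helper297.
The statements are FROZEN.  Proofs: helper297.
Helper lemmas: same file, namespace `Fermat.Agent.S48.B.GaussPos`.

`ψ = ZMod.stdAddChar`; `ψ x = cexp (2πi x.val/ℓ)` (`ZMod.stdAddChar_coe`, `ZMod.natCast_zmod_val`), `ψ x ^ k = ψ (k x)`
(`AddChar.map_nsmul_eq_pow`), `(ψ x)⁻¹ = ψ (-x)` (`AddChar.map_neg_eq_inv`).
`∑_x χ⁻¹ x ψ (k x) = χ k * g`: for `k` a unit `gaussSum_mulShift`; for `k = 0` in `ZMod ℓ`: `MulChar.sum_eq_zero_of_ne_one`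
(`χ⁻¹ ≠ 1` because `χ (-1) = -1 ≠ 1`) and `χ 0 = 0`.  With `-k`: `χ (-k) = - χ k`.  So the inner sum is `-2 χ k g`.
`g ≠ 0`: `gaussSum_mul_gaussSum_eq_card` (`ZMod.isPrimitive_stdAddChar`).
-/
import Fermat.Agent.S48.B.Defs

set_option autoImplicit false

noncomputable section

namespace Fermat.Agent.S48.B

open UpperHalfPlane hiding I
open Complex Filter Topology EisensteinSeries Matrix CongruenceSubgroup
open scoped Real MatrixGroups Manifold ModularForm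

local notation "𝕢" => Function.Periodic.qParam

variable (ℓ : ℕ) [Fact ℓ.Prime] (χ : DirichletCharacter ℂ ℓ)

namespace GaussPos

theorem inv_ne_one (hχ : χ (-1) = -1) : χ⁻¹ ≠ 1 := by
  intro h
  have h1 : χ = 1 := by rw [← inv_inv χ, h, inv_one]
  rw [h1, MulChar.one_apply (isUnit_one.neg)] at hχ
  norm_num at hχ

theorem sum_mulShift (hχ : χ (-1) = -1) (k : ZMod ℓ) :
    ∑ x : ZMod ℓ, χ⁻¹ x * ZMod.stdAddChar (N := ℓ) (k * x) =
      χ k * gaussSum χ⁻¹ (ZMod.stdAddChar (N := ℓ)) := by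
  by_cases hk : k = 0
  · subst hk
    simp only [zero_mul, AddChar.map_zero_eq_one, mul_one, MulChar.map_zero]
    exact MulChar.sum_eq_zero_of_ne_one (inv_ne_one ℓ χ hχ)
  · have hu : IsUnit k := Ne.isUnit hk
    have h := gaussSum_mulShift_eq χ⁻¹ (ZMod.stdAddChar (N := ℓ)) hu.unit
    rw [inv_inv, hu.unit_spec] at h
    rw [← h, gaussSum]
    simp only [AddChar.mulShift_apply]

theorem cexp_eq (x : ZMod ℓ) :
    cexp (2 * π * I * ((x.val : ℤ) : ℂ) / ℓ) = ZMod.stdAddChar (N := ℓ) x := by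
  rw [← ZMod.stdAddChar_coe, Int.cast_natCast, ZMod.natCast_zmod_val]

theorem pow_eq (x : ZMod ℓ) (k : ℕ) :
    ZMod.stdAddChar (N := ℓ) x ^ k = ZMod.stdAddChar (N := ℓ) ((k : ZMod ℓ) * x) := by
  rw [← AddChar.map_nsmul_eq_pow, nsmul_eq_mul]

theorem inv_pow_eq (x : ZMod ℓ) (k : ℕ) :
    (ZMod.stdAddChar (N := ℓ) x)⁻¹ ^ k = ZMod.stdAddChar (N := ℓ) ((-(k : ZMod ℓ)) * x) := by
  rw [← AddChar.map_neg_eq_inv, pow_eq, mul_neg, neg_mul]

end GaussPos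

open GaussPos

theorem gaussSum_inv_ne_zero (hχ : χ (-1) = -1) :
    gaussSum χ⁻¹ (ZMod.stdAddChar (N := ℓ)) ≠ 0 := by
  intro h
  have h1 := gaussSum_mul_gaussSum_eq_card (inv_ne_one ℓ χ hχ) (ZMod.isPrimitive_stdAddChar ℓ)
  rw [h, zero_mul, ZMod.card] at h1
  exact (Nat.cast_ne_zero.mpr (Fact.out : ℓ.Prime).ne_zero) h1.symm

theorem sum_char_cZ_pos (hχ : χ (-1) = -1) (n : ℕ) (hn : 0 < n) :
    ∑ x : ZMod ℓ, χ⁻¹ x * cZ ℓ (x.val : ℤ) n =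
      -(4 * π * I * gaussSum χ⁻¹ (ZMod.stdAddChar (N := ℓ))) *
        ∑ k ∈ n.divisors, χ (k : ZMod ℓ) := by
  have h1 : ∀ x : ZMod ℓ, χ⁻¹ x * cZ ℓ (x.val : ℤ) n =
      2 * π * I * ∑ k ∈ n.divisors,
        (χ⁻¹ x * ZMod.stdAddChar (N := ℓ) ((-(k : ZMod ℓ)) * x) -
          χ⁻¹ x * ZMod.stdAddChar (N := ℓ) ((k : ZMod ℓ) * x)) := by
    intro x
    rw [cZ, if_neg hn.ne', cexp_eq]
    simp_rw [pow_eq, inv_pow_eq, ← mul_sub]
    rw [← Finset.mul_sum]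
    ring
  simp_rw [h1]
  rw [← Finset.mul_sum, Finset.sum_comm]
  simp_rw [Finset.sum_sub_distrib, sum_mulShift ℓ χ hχ]
  have h2 : ∀ k : ℕ, χ (-(k : ZMod ℓ)) = -χ (k : ZMod ℓ) := by
    intro k
    rw [← neg_one_mul, map_mul, hχ, neg_one_mul]
  simp_rw [h2]
  rw [← Finset.sum_sub_distrib, Finset.mul_sum, Finset.mul_sum]
  refine Finset.sum_congr rfl fun k _ => ?_
  ring

end Fermat.Agent.S48.B
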