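/-
S48 (Deligne-Serre), node B = `EisensteinOne`.  TASK B-18.   Sub-architect: helper297.
DONE (helper141): all proofs complete; the statements are FROZEN.
Helper lemmas: same file, namespace `Fermat.Agent.S48.B.GaussZero`.

`cZ ℓ b 0 = pcot (b/ℓ)`.  For `x ≠ 0`, `z = ψ x = cexp (2πi x.val/ℓ) ≠ 1`:
`pcot (x.val/ℓ) = πi (z+1)/(z-1) = πi (1 + 2/(z-1))` (`Complex.cot_pi_eq_exp_ratio`), and
`1/(z-1) = (1/ℓ) ∑_{a<ℓ} a z^a`  [`(z-1) ∑_{a<ℓ} a z^a = ℓ` since `z^ℓ = 1`, `∑_{a<ℓ} z^a = 0`; e.g. induction: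
`(z-1) ∑_{a<n} a z^a = (n-1) z^n - ∑_{1≤a<n} z^a`].  Then `∑_x χ⁻¹ x = 0` and
`∑_x χ⁻¹ x ψ(a x) = χ a * g` (see the hints of `GaussPos.lean`; prove it again here as a private helper or ask the
owner of B-17), so the sum is `(2πi/ℓ) g ∑_a a χ a`.  The term `x = 0` has coefficient `χ⁻¹ 0 = 0`.
-/
import Fermat.Agent.S48.B.Defs

set_option autoImplicit false

noncomputable section

namespace Fermat.Agent.S48.B

open UpperHalfPlane hiding I
open Complex Filter Topology EisensteinSeries Matrix CongruenceSubgroup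
open scoped Real MatrixGroups Manifold ModularForm

local notation "𝕢" => Function.Periodic.qParam

namespace GaussZero

theorem sub_one_mul_sum (z : ℂ) (n : ℕ) :
    (z - 1) * ∑ a ∈ Finset.range n, (a : ℂ) * z ^ a =
      n * z ^ n - ∑ a ∈ Finset.range n, z ^ (a + 1) := by
  induction n with
  | zero => simp
  | succ n ih =>
    rw [Finset.sum_range_succ, Finset.sum_range_succ, mul_add, ih]
    push_cast
    ring

theorem sub_one_mul_sum_of_pow_eq_one (z : ℂ) (n : ℕ) (hz : z ^ n = 1) (hz1 : z ≠ 1) :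
    (z - 1) * ∑ a ∈ Finset.range n, (a : ℂ) * z ^ a = n := by
  rw [sub_one_mul_sum, hz]
  have h : ∑ a ∈ Finset.range n, z ^ (a + 1) = 0 := by
    have h1 : ∑ a ∈ Finset.range n, z ^ (a + 1) = z * ∑ a ∈ Finset.range n, z ^ a := by
      rw [Finset.mul_sum]
      exact Finset.sum_congr rfl fun a _ => by ring
    rw [h1, geom_sum_eq hz1, hz]
    simp
  rw [h]
  ring

theorem pcot_eq (w : ℂ) (n : ℕ) (hn : n ≠ 0) (hz : cexp (2 * π * I * w) ^ n = 1)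
    (hz1 : cexp (2 * π * I * w) ≠ 1) :
    pcot w = π * I * (1 + 2 / n * ∑ a ∈ Finset.range n, (a : ℂ) * cexp (2 * π * I * w) ^ a) := by
  have h := sub_one_mul_sum_of_pow_eq_one _ n hz hz1
  rw [pcot, Complex.cot_pi_eq_exp_ratio]
  set e := cexp (2 * π * I * w)
  set S := ∑ a ∈ Finset.range n, (a : ℂ) * e ^ a
  have he : e - 1 ≠ 0 := sub_ne_zero.mpr hz1
  have he' : 1 - e ≠ 0 := sub_ne_zero.mpr (Ne.symm hz1)
  have hn' : (n : ℂ) ≠ 0 := Nat.cast_ne_zero.mpr hn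
  have hS : S = n / (e - 1) := by
    rw [eq_div_iff he, mul_comm]; exact h
  rw [hS]
  have hI : I * I = -1 := Complex.I_mul_I
  field_simp
  linear_combination ((e - 1) * (e + 1)) * hI

end GaussZero

variable (ℓ : ℕ) [Fact ℓ.Prime] (χ : DirichletCharacter ℂ ℓ)

namespace GaussZero

theorem inv_ne_one (hχ : χ (-1) = -1) : χ⁻¹ ≠ 1 := by
  intro h
  have h1 : χ = 1 := by simpa using h
  rw [h1, MulChar.one_apply (isUnit_one.neg)] at hχ
  norm_num at hχ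

theorem sum_inv_mul_pow (hχ : χ (-1) = -1) (a : ℕ) :
    ∑ x : ZMod ℓ, χ⁻¹ x * (ZMod.stdAddChar (N := ℓ) x) ^ a =
      χ (a : ZMod ℓ) * gaussSum χ⁻¹ (ZMod.stdAddChar (N := ℓ)) := by
  by_cases ha : (a : ZMod ℓ) = 0
  · have h1 : ∀ x : ZMod ℓ, (ZMod.stdAddChar (N := ℓ) x) ^ a = 1 := by
      intro x
      rw [← AddChar.map_nsmul_eq_pow, nsmul_eq_mul, ha, zero_mul, AddChar.map_zero_eq_one]
    simp only [h1, mul_one]
    rw [MulChar.sum_eq_zero_of_ne_one (inv_ne_one ℓ χ hχ), ha, MulChar.map_zero, zero_mul]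
  · have hu : IsUnit (a : ZMod ℓ) := isUnit_iff_ne_zero.mpr ha
    obtain ⟨u, hu⟩ := hu
    have h := gaussSum_mulShift_eq χ⁻¹ (ZMod.stdAddChar (N := ℓ)) u
    rw [inv_inv, hu] at h
    rw [← h, gaussSum]
    refine Finset.sum_congr rfl fun x _ => ?_
    rw [AddChar.mulShift_apply, ← AddChar.map_nsmul_eq_pow, nsmul_eq_mul]

theorem stdAddChar_eq (x : ZMod ℓ) :
    ZMod.stdAddChar (N := ℓ) x = cexp (2 * π * I * (((x.val : ℤ) : ℂ) / ℓ)) := by
  have h := ZMod.stdAddChar_coe (N := ℓ) (x.val : ℤ)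
  rw [Int.cast_natCast, ZMod.natCast_zmod_val] at h
  rw [h]
  congr 1
  push_cast
  ring

end GaussZero

theorem sum_char_cZ_zero (hχ : χ (-1) = -1) :
    ∑ x : ZMod ℓ, χ⁻¹ x * cZ ℓ (x.val : ℤ) 0 =
      2 * π * I * gaussSum χ⁻¹ (ZMod.stdAddChar (N := ℓ)) / ℓ *
        ∑ a ∈ Finset.range ℓ, (a : ℂ) * χ (a : ZMod ℓ) := by
  have hℓ : ℓ ≠ 0 := (Fact.out : ℓ.Prime).ne_zero
  have h1 : ∀ x : ZMod ℓ, χ⁻¹ x * cZ ℓ (x.val : ℤ) 0 =
      χ⁻¹ x * (π * I * (1 + 2 / ℓ * ∑ a ∈ Finset.range ℓ,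
        (a : ℂ) * (ZMod.stdAddChar (N := ℓ) x) ^ a)) := by
    intro x
    by_cases hx : x = 0
    · rw [hx, MulChar.map_zero, zero_mul, zero_mul]
    · congr 1
      rw [cZ, if_pos rfl, GaussZero.stdAddChar_eq]
      apply GaussZero.pcot_eq _ _ hℓ
      · rw [← GaussZero.stdAddChar_eq, ← AddChar.map_nsmul_eq_pow, nsmul_eq_mul,
          ZMod.natCast_self, zero_mul, AddChar.map_zero_eq_one]
      · rw [← GaussZero.stdAddChar_eq]
        intro h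
        apply hx
        apply ZMod.injective_stdAddChar
        rw [h, AddChar.map_zero_eq_one]
  rw [Finset.sum_congr rfl fun x _ => h1 x]
  have h2 : ∀ x : ZMod ℓ, χ⁻¹ x * (π * I * (1 + 2 / ℓ * ∑ a ∈ Finset.range ℓ,
        (a : ℂ) * (ZMod.stdAddChar (N := ℓ) x) ^ a)) =
      π * I * χ⁻¹ x + 2 * π * I / ℓ * ∑ a ∈ Finset.range ℓ,
        (a : ℂ) * (χ⁻¹ x * (ZMod.stdAddChar (N := ℓ) x) ^ a) := by
    intro x
    have : ∑ a ∈ Finset.range ℓ, (a : ℂ) * (χ⁻¹ x * (ZMod.stdAddChar (N := ℓ) x) ^ a) =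
        χ⁻¹ x * ∑ a ∈ Finset.range ℓ, (a : ℂ) * (ZMod.stdAddChar (N := ℓ) x) ^ a := by
      rw [Finset.mul_sum]
      exact Finset.sum_congr rfl fun a _ => by ring
    rw [this]
    ring
  rw [Finset.sum_congr rfl fun x _ => h2 x, Finset.sum_add_distrib, ← Finset.mul_sum,
    MulChar.sum_eq_zero_of_ne_one (GaussZero.inv_ne_one ℓ χ hχ), mul_zero, zero_add,
    ← Finset.mul_sum, Finset.sum_comm]
  have h3 : ∀ a ∈ Finset.range ℓ, ∑ x : ZMod ℓ,
      (a : ℂ) * (χ⁻¹ x * (ZMod.stdAddChar (N := ℓ) x) ^ a) =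
      gaussSum χ⁻¹ (ZMod.stdAddChar (N := ℓ)) * ((a : ℂ) * χ (a : ZMod ℓ)) := by
    intro a _
    rw [← Finset.mul_sum, GaussZero.sum_inv_mul_pow ℓ χ hχ a]
    ring
  rw [Finset.sum_congr rfl h3, ← Finset.mul_sum]
  ring

end Fermat.Agent.S48.B
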