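/-
S48 (Deligne-Serre), node B = `EisensteinOne`.  TASK B-13.   Sub-architect: helper297.
Proved by helper151.
Helper lemmas: same file, namespace `Fermat.Agent.S48.B.CompQ`.

`‖𝕢 h τ‖ < 1` (`Function.Periodic.norm_qParam_lt_one`), `𝕢 h` is entire, `UpperHalfPlane.mdifferentiable_iff`
(`MDiff f ↔ DifferentiableOn ℂ (f ∘ ofComplex) {z | 0 < z.im}`), see `Fermat/Agent/NV2/TExpExists.lean: mdiff_qParam`.
Boundedness: `Φ` is continuous at `0`, `UpperHalfPlane.qParam_tendsto_atImInfty`, so `Φ ∘ 𝕢` tends to `Φ 0`;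
`Filter.Tendsto.isBigO_one`.
-/
import Fermat.Agent.S48.B.Defs

set_option autoImplicit false

noncomputable section

namespace Fermat.Agent.S48.B

open UpperHalfPlane hiding I
open Complex Filter Topology EisensteinSeries Matrix CongruenceSubgroup
open scoped Real MatrixGroups Manifold ModularForm

local notation "𝕢" => Function.Periodic.qParam

theorem mdiff_comp_qParam {Φ : ℂ → ℂ} (hΦ : DifferentiableOn ℂ Φ (Metric.ball 0 1)) {h : ℝ}
    (hh : 0 < h) : MDiff (fun τ : ℍ => Φ (𝕢 h τ)) := by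
  rw [UpperHalfPlane.mdifferentiable_iff]
  have h1 : DifferentiableOn ℂ (fun z : ℂ => Φ (𝕢 h z)) {z | 0 < z.im} :=
    hΦ.comp (Function.Periodic.differentiable_qParam).differentiableOn (fun z hz => by
      rw [Metric.mem_ball, dist_zero_right]
      exact Function.Periodic.norm_qParam_lt_one hh hz)
  refine h1.congr ?_
  intro z hz
  simp only [Function.comp_apply]
  rw [ofComplex_apply_of_im_pos hz]

theorem isBoundedAtImInfty_comp_qParam {Φ : ℂ → ℂ} (hΦ : DifferentiableOn ℂ Φ (Metric.ball 0 1))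
    {h : ℝ} (hh : 0 < h) : IsBoundedAtImInfty (fun τ : ℍ => Φ (𝕢 h τ)) := by
  have hc : ContinuousAt Φ 0 :=
    (hΦ.differentiableAt (Metric.ball_mem_nhds 0 one_pos)).continuousAt
  have h1 : Tendsto (fun τ : ℍ => 𝕢 h τ) atImInfty (𝓝 0) :=
    UpperHalfPlane.qParam_tendsto_atImInfty hh
  have h2 : Tendsto (fun τ : ℍ => Φ (𝕢 h τ)) atImInfty (𝓝 (Φ 0)) := hc.tendsto.comp h1
  exact h2.isBigO_one ℝ

end Fermat.Agent.S48.B
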