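/-
S48 (Deligne-Serre), node B = `EisensteinOne`.  TASK B-0.   Sub-architect: helper297.
The statements are FROZEN.
Helper lemmas: same file, namespace `Fermat.Agent.S48.B.Basic`.

Elementary facts.
-/
import Fermat.Agent.S48.B.Defs

set_option autoImplicit false

noncomputable section

namespace Fermat.Agent.S48.B

open UpperHalfPlane hiding I
open Complex Filter Topology EisensteinSeries Matrix CongruenceSubgroup
open scoped Real MatrixGroups Manifold ModularForm

local notation "𝕢" => Function.Periodic.qParam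

theorem pcot_neg (w : ℂ) : pcot (-w) = -pcot w := by
  simp [pcot, Complex.cot, Complex.sin_neg, Complex.cos_neg, div_neg]

theorem pcot_zero : pcot 0 = 0 := by
  simp [pcot, Complex.cot]

theorem lin_cons (τ : ℍ) (m n : ℤ) : lin τ ![m, n] = m * τ + n := by
  simp [lin]

theorem lin_zero (τ : ℍ) : lin τ 0 = 0 := by
  simp [lin]

theorem lin_add (τ : ℍ) (x y : Fin 2 → ℤ) : lin τ (x + y) = lin τ x + lin τ y := by
  simp only [lin, Pi.add_apply, Int.cast_add]
  ring

theorem lin_sub (τ : ℍ) (x y : Fin 2 → ℤ) : lin τ (x - y) = lin τ x - lin τ y := by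
  simp only [lin, Pi.sub_apply, Int.cast_sub]
  ring

theorem lin_smul_int (τ : ℍ) (c : ℤ) (x : Fin 2 → ℤ) : lin τ (c • x) = c * lin τ x := by
  simp only [lin, Pi.smul_apply, smul_eq_mul, Int.cast_mul]
  ring

theorem lin_eq_zero_iff (τ : ℍ) (x : Fin 2 → ℤ) : lin τ x = 0 ↔ x = 0 := by
  constructor
  · intro h
    have him := congrArg Complex.im h
    simp only [lin, Complex.add_im, Complex.mul_im, Complex.intCast_re, Complex.intCast_im,
      zero_mul, add_zero, Complex.zero_im, UpperHalfPlane.coe_im] at him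
    have h0 : x 0 = 0 := by
      rcases mul_eq_zero.mp him with h1 | h1
      · exact_mod_cast h1
      · exact absurd h1 τ.im_pos.ne'
    have h1 : x 1 = 0 := by
      rw [lin, h0] at h
      simpa using h
    funext i
    fin_cases i
    · exact h0
    · exact h1
  · rintro rfl
    exact lin_zero τ

theorem div_ne_lin (N : ℕ) [NeZero N] (v : Fin 2 → ℤ) (hv : ¬ ∀ i, (N : ℤ) ∣ v i) (τ : ℍ)
    (x : Fin 2 → ℤ) : lin τ v / N ≠ lin τ x := by
  intro h
  have hN : (N : ℂ) ≠ 0 := Nat.cast_ne_zero.mpr (NeZero.ne N)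
  rw [div_eq_iff hN] at h
  have h2 : lin τ (v - (N : ℤ) • x) = 0 := by
    rw [lin_sub, lin_smul_int, h]
    push_cast
    ring
  rw [lin_eq_zero_iff, sub_eq_zero] at h2
  exact hv fun i => ⟨x i, by rw [h2]; simp⟩

theorem sum_Icc_pcot (τ : ℍ) (u : ℂ) (M : ℕ) :
    ∑ m ∈ Finset.Icc (-(M : ℤ)) M, pcot (u - m * τ) =
      pcot u + ∑ m ∈ Finset.range M, cotPair τ u m := by
  induction M with
  | zero => simp
  | succ M ih =>
    have h1 : Finset.Icc (-((M + 1 : ℕ) : ℤ)) ((M + 1 : ℕ) : ℤ) =
        insert (-((M : ℤ) + 1)) (insert ((M : ℤ) + 1) (Finset.Icc (-(M : ℤ)) M)) := by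
      ext a
      simp only [Finset.mem_Icc, Finset.mem_insert, Nat.cast_add, Nat.cast_one]
      omega
    rw [h1, Finset.sum_insert, Finset.sum_insert, ih, Finset.sum_range_succ, cotPair]
    · push_cast
      ring_nf
    · simp only [Finset.mem_Icc]
      omega
    · simp only [Finset.mem_Icc, Finset.mem_insert]
      omega

end Fermat.Agent.S48.B
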