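/-
S48 (Deligne-Serre), node B = `EisensteinOne`.  TASK B-6.   Sub-architect: helper297.
Owner of the proofs: helper288.  The statements are FROZEN (verbatim).
Helper lemmas: same file, namespace `Fermat.Agent.S48.B.CotLim`.

`pcot_eq_exp`: `Complex.cot_pi_eq_exp_ratio` (no hypothesis; both sides are `0` at the poles).
Limits: `cexp (2πi(u + Mτ)) = cexp (2πi u) * q ^ M`, `‖q‖ < 1`;
`pcot (u - Mτ) = - pcot (-u + Mτ)`.
`summable_cotPair` (all `u`): `cotPair τ u m = πi (h (Q/A) - h (A Q))` with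
`h x = (1 + x)/(1 - x) - 1`, `‖h x‖ ≤ 4 ‖x‖` for `‖x‖ ≤ 1/2`.
-/
import Fermat.Agent.S48.B.Basic

set_option autoImplicit false

noncomputable section

namespace Fermat.Agent.S48.B

open UpperHalfPlane hiding I
open Complex Filter Topology EisensteinSeries Matrix CongruenceSubgroup
open scoped Real MatrixGroups Manifold ModularForm

local notation "𝕢" => Function.Periodic.qParam

theorem pcot_eq_exp (w : ℂ) :
    pcot w = -(π * I) * ((1 + cexp (2 * π * I * w)) / (1 - cexp (2 * π * I * w))) := by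
  rw [pcot, Complex.cot_pi_eq_exp_ratio, div_eq_mul_inv, mul_inv, Complex.inv_I, div_eq_mul_inv]
  ring

namespace CotLim

theorem exp_add_mul (τ : ℍ) (u : ℂ) (M : ℕ) :
    cexp (2 * π * I * (u + M * τ)) = cexp (2 * π * I * u) * cexp (2 * π * I * τ) ^ M := by
  rw [← Complex.exp_nat_mul, ← Complex.exp_add]
  congr 1
  ring

theorem tendsto_exp_add_mul (τ : ℍ) (u : ℂ) :
    Tendsto (fun M : ℕ => cexp (2 * π * I * (u + M * τ))) atTop (𝓝 0) := by
  have h := (tendsto_pow_atTop_nhds_zero_of_norm_lt_one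
    (UpperHalfPlane.norm_exp_two_pi_I_lt_one τ)).const_mul (cexp (2 * π * I * u))
  rw [mul_zero] at h
  exact h.congr fun M => (exp_add_mul τ u M).symm

/-- `‖(1 + x)/(1 - x) - 1‖ ≤ 4 ‖x‖` for `‖x‖ ≤ 1/2`. -/
theorem norm_ratio_sub_one_le {x : ℂ} (hx : ‖x‖ ≤ 1 / 2) :
    ‖(1 + x) / (1 - x) - 1‖ ≤ 4 * ‖x‖ := by
  have h1 : (1 : ℝ) / 2 ≤ ‖1 - x‖ := by
    have h2 := norm_sub_norm_le (1 : ℂ) x
    rw [norm_one] at h2
    linarith
  have h0 : (1 : ℂ) - x ≠ 0 := by
    intro h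
    rw [h, norm_zero] at h1
    linarith
  have h3 : (1 + x) / (1 - x) - 1 = 2 * x / (1 - x) := by
    field_simp
    ring
  rw [h3, norm_div, norm_mul, Complex.norm_ofNat, div_le_iff₀ (by linarith)]
  have := norm_nonneg x
  nlinarith

theorem summable_ratio_sub_one (c : ℂ) {q : ℂ} (hq : ‖q‖ < 1) :
    Summable (fun m : ℕ => (1 + c * q ^ (m + 1)) / (1 - c * q ^ (m + 1)) - 1) := by
  have hg : Summable (fun m : ℕ => 4 * (‖c‖ * ‖q‖ ^ (m + 1))) :=
    (((summable_nat_add_iff 1).mpr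
      (summable_geometric_of_lt_one (norm_nonneg q) hq)).mul_left ‖c‖).mul_left 4
  refine Summable.of_norm_bounded_eventually_nat hg ?_
  have ht : Tendsto (fun m : ℕ => c * q ^ (m + 1)) atTop (𝓝 0) := by
    have h := ((tendsto_pow_atTop_nhds_zero_of_norm_lt_one hq).comp
      (tendsto_add_atTop_nat 1)).const_mul c
    rwa [mul_zero] at h
  have hev : ∀ᶠ m : ℕ in atTop, ‖c * q ^ (m + 1)‖ ≤ 1 / 2 := by
    have h := ht.norm
    rw [norm_zero] at h
    exact (h.eventually (gt_mem_nhds (by norm_num : (0 : ℝ) < 1 / 2))).mono fun m hm => hm.le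
  filter_upwards [hev] with m hm
  have h := norm_ratio_sub_one_le hm
  rwa [norm_mul, norm_pow] at h

theorem cotPair_eq (τ : ℍ) (u : ℂ) (m : ℕ) :
    cotPair τ u m = π * I *
      (((1 + cexp (2 * π * I * (-u)) * cexp (2 * π * I * τ) ^ (m + 1)) /
          (1 - cexp (2 * π * I * (-u)) * cexp (2 * π * I * τ) ^ (m + 1)) - 1) -
        ((1 + cexp (2 * π * I * u) * cexp (2 * π * I * τ) ^ (m + 1)) /
          (1 - cexp (2 * π * I * u) * cexp (2 * π * I * τ) ^ (m + 1)) - 1)) := by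
  have h1 : u - ((m : ℂ) + 1) * τ = -(-u + ((m + 1 : ℕ) : ℂ) * τ) := by
    push_cast
    ring
  have h2 : u + ((m : ℂ) + 1) * τ = u + ((m + 1 : ℕ) : ℂ) * τ := by
    push_cast
    ring
  rw [cotPair, h1, h2, pcot_neg, pcot_eq_exp, pcot_eq_exp, exp_add_mul, exp_add_mul]
  ring

end CotLim

theorem tendsto_pcot_add (τ : ℍ) (u : ℂ) :
    Tendsto (fun M : ℕ => pcot (u + M * τ)) atTop (𝓝 (-(π * I))) := by
  have h0 := CotLim.tendsto_exp_add_mul τ u
  have h1 : Tendsto (fun M : ℕ => (1 + cexp (2 * π * I * (u + M * τ))) /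
      (1 - cexp (2 * π * I * (u + M * τ)))) atTop (𝓝 ((1 + 0) / (1 - 0))) :=
    (h0.const_add 1).div (h0.const_sub 1) (by norm_num)
  have h2 := h1.const_mul (-(π * I))
  rw [add_zero, sub_zero, div_one, mul_one] at h2
  exact h2.congr fun M => (pcot_eq_exp _).symm

theorem tendsto_pcot_sub (τ : ℍ) (u : ℂ) :
    Tendsto (fun M : ℕ => pcot (u - M * τ)) atTop (𝓝 (π * I)) := by
  have h := (tendsto_pcot_add τ (-u)).neg
  rw [neg_neg] at h
  refine h.congr fun M => ?_
  rw [← pcot_neg]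
  congr 1
  ring

theorem summable_cotPair (τ : ℍ) (u : ℂ) : Summable (cotPair τ u) := by
  have hq := UpperHalfPlane.norm_exp_two_pi_I_lt_one τ
  have h := ((CotLim.summable_ratio_sub_one (cexp (2 * π * I * (-u))) hq).sub
    (CotLim.summable_ratio_sub_one (cexp (2 * π * I * u)) hq)).mul_left (π * I)
  exact h.congr fun m => (CotLim.cotPair_eq τ u m).symm

end Fermat.Agent.S48.B
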