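/-
S48 (Deligne-Serre), node B = `EisensteinOne`.  TASK B-8.   Sub-architect: helper297.
STUB: the statements are FROZEN (keep them verbatim); the task owner replaces every unfinished proof.
Helper lemmas: same file, namespace `Fermat.Agent.S48.B.Quasi`.

`FF_add_one`: `pcot (w + 1) = pcot w` (`pcot_eq_exp`, `Complex.exp_periodic`), termwise.
`FF_add_tau` (all `u`): `S M u := ∑_{m ∈ Icc (-M) M} pcot (u - mτ) → FF τ u` (`sum_Icc_pcot`, `summable_cotPair`), and
`S M (u + τ) - S M u = pcot (u + (M+1)τ) - pcot (u - Mτ)` (telescoping, induction on `M` or reindexing) `→ -πi - πi`.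
`FF_add_lin`: `Int.induction_on` in both coordinates (or: prove `FF τ (u + n) = FF τ u` and
`FF τ (u + mτ) = FF τ u - 2πi m` for integers).
-/
import Fermat.Agent.S48.B.CotLim

set_option autoImplicit false

noncomputable section

namespace Fermat.Agent.S48.B

open UpperHalfPlane hiding I
open Complex Filter Topology EisensteinSeries Matrix CongruenceSubgroup
open scoped Real MatrixGroups Manifold ModularForm

local notation "𝕢" => Function.Periodic.qParam

namespace Quasi

theorem pcot_add_one (w : ℂ) : pcot (w + 1) = pcot w := by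
  rw [pcot_eq_exp, pcot_eq_exp]
  have : cexp (2 * π * I * (w + 1)) = cexp (2 * π * I * w) := by
    rw [mul_add, mul_one, Complex.exp_add, Complex.exp_two_pi_mul_I, mul_one]
  rw [this]

theorem cotPair_add_one (τ : ℍ) (u : ℂ) (m : ℕ) : cotPair τ (u + 1) m = cotPair τ u m := by
  unfold cotPair
  rw [show u + 1 - ((m : ℂ) + 1) * τ = (u - ((m : ℂ) + 1) * τ) + 1 by ring,
    show u + 1 + ((m : ℂ) + 1) * τ = (u + ((m : ℂ) + 1) * τ) + 1 by ring,
    pcot_add_one, pcot_add_one]

/-- the partial sums of `FF` -/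
def part (τ : ℍ) (u : ℂ) (M : ℕ) : ℂ := pcot u + ∑ m ∈ Finset.range M, cotPair τ u m

theorem tendsto_part (τ : ℍ) (u : ℂ) : Tendsto (part τ u) atTop (𝓝 (FF τ u)) :=
  tendsto_const_nhds.add (summable_cotPair τ u).hasSum.tendsto_sum_nat

theorem part_add_tau (τ : ℍ) (u : ℂ) (M : ℕ) :
    part τ (u + τ) M - part τ u M = pcot (u + ((M + 1 : ℕ) : ℂ) * τ) - pcot (u - (M : ℂ) * τ) := by
  induction M with
  | zero => simp [part]
  | succ M ih =>
    have h1 : part τ (u + τ) (M + 1) = part τ (u + τ) M + cotPair τ (u + τ) M := by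
      simp only [part, Finset.sum_range_succ]; ring
    have h2 : part τ u (M + 1) = part τ u M + cotPair τ u M := by
      simp only [part, Finset.sum_range_succ]; ring
    have h3 : cotPair τ (u + τ) M = pcot (u - (M : ℂ) * τ) + pcot (u + ((M + 1 + 1 : ℕ) : ℂ) * τ) := by
      unfold cotPair
      rw [show u + τ - ((M : ℂ) + 1) * τ = u - (M : ℂ) * τ by ring,
        show u + τ + ((M : ℂ) + 1) * τ = u + ((M + 1 + 1 : ℕ) : ℂ) * τ by push_cast; ring]
    have h4 : cotPair τ u M = pcot (u - ((M + 1 : ℕ) : ℂ) * τ) + pcot (u + ((M + 1 : ℕ) : ℂ) * τ) := by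
      unfold cotPair
      push_cast
      rfl
    rw [h1, h2, h3, h4]
    linear_combination ih

end Quasi

theorem FF_add_one (τ : ℍ) (u : ℂ) : FF τ (u + 1) = FF τ u := by
  unfold FF
  rw [Quasi.pcot_add_one]
  congr 1
  exact tsum_congr fun m => Quasi.cotPair_add_one τ u m

theorem FF_add_tau (τ : ℍ) (u : ℂ) : FF τ (u + τ) = FF τ u - 2 * π * I := by
  have h1 : Tendsto (fun M => Quasi.part τ (u + τ) M - Quasi.part τ u M) atTop
      (𝓝 (FF τ (u + τ) - FF τ u)) := (Quasi.tendsto_part τ (u + τ)).sub (Quasi.tendsto_part τ u)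
  have h2 : Tendsto (fun M : ℕ => pcot (u + ((M + 1 : ℕ) : ℂ) * τ) - pcot (u - (M : ℂ) * τ)) atTop
      (𝓝 (-(π * I) - π * I)) :=
    ((tendsto_pcot_add τ u).comp (tendsto_add_atTop_nat 1)).sub (tendsto_pcot_sub τ u)
  have h3 : (fun M => Quasi.part τ (u + τ) M - Quasi.part τ u M) =
      fun M : ℕ => pcot (u + ((M + 1 : ℕ) : ℂ) * τ) - pcot (u - (M : ℂ) * τ) :=
    funext fun M => Quasi.part_add_tau τ u M
  rw [h3] at h1
  have h4 := tendsto_nhds_unique h1 h2
  linear_combination h4

namespace Quasi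

theorem FF_add_int (τ : ℍ) (n : ℤ) : ∀ u : ℂ, FF τ (u + n) = FF τ u := by
  induction n using Int.induction_on with
  | zero => intro u; simp
  | succ k ih =>
    intro u
    have := FF_add_one τ (u + (k : ℤ))
    rw [ih u] at this
    rw [← this]
    congr 1
    push_cast
    ring
  | pred k ih =>
    intro u
    have := FF_add_one τ (u + ((-(k : ℤ) - 1 : ℤ) : ℂ))
    rw [← this, ← ih u]
    congr 1
    push_cast
    ring

theorem FF_add_int_mul_tau (τ : ℍ) (m : ℤ) :
    ∀ u : ℂ, FF τ (u + m * τ) = FF τ u - 2 * π * I * m := by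
  induction m using Int.induction_on with
  | zero => intro u; simp
  | succ k ih =>
    intro u
    have h := FF_add_tau τ (u + ((k : ℤ) : ℂ) * τ)
    rw [ih u] at h
    rw [show u + (((k : ℤ) + 1 : ℤ) : ℂ) * τ = u + ((k : ℤ) : ℂ) * τ + τ by push_cast; ring, h]
    push_cast
    ring
  | pred k ih =>
    intro u
    have h := FF_add_tau τ (u + ((-(k : ℤ) - 1 : ℤ) : ℂ) * τ)
    rw [show u + ((-(k : ℤ) - 1 : ℤ) : ℂ) * τ + τ = u + ((-(k : ℤ) : ℤ) : ℂ) * τ by push_cast; ring,
      ih u] at h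
    push_cast at h ⊢
    linear_combination -h

end Quasi

theorem FF_add_lin (τ : ℍ) (u : ℂ) (x : Fin 2 → ℤ) :
    FF τ (u + lin τ x) = FF τ u - 2 * π * I * x 0 := by
  rw [lin, ← add_assoc, Quasi.FF_add_int, Quasi.FF_add_int_mul_tau]

end Fermat.Agent.S48.B
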