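/-
S48 (Deligne-Serre), node B = `EisensteinOne`.  TASK B-10.   Sub-architect: helper297.
The statements are FROZEN.  Proofs: helper297.
Helper lemmas: same file, namespace `Fermat.Agent.S48.B.Congr`.

`v = v' + N • x`; `lin τ v / N = lin τ v' / N + lin τ x`; `FF_add_lin`; the terms `2πi x₀` cancel.
-/
import Fermat.Agent.S48.B.Quasi

set_option autoImplicit false

noncomputable section

namespace Fermat.Agent.S48.B

open UpperHalfPlane hiding I
open Complex Filter Topology EisensteinSeries Matrix CongruenceSubgroup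
open scoped Real MatrixGroups Manifold ModularForm

local notation "𝕢" => Function.Periodic.qParam

theorem Zv_congr (N : ℕ) [NeZero N] {v v' : Fin 2 → ℤ} (h : ∀ i, (N : ℤ) ∣ v i - v' i) :
    Zv N v = Zv N v' := by
  have hN : (N : ℂ) ≠ 0 := Nat.cast_ne_zero.mpr (NeZero.ne N)
  choose x hx using h
  have hv : v = v' + (N : ℤ) • x := by
    funext i
    have := hx i
    simp only [Pi.add_apply, Pi.smul_apply, smul_eq_mul]
    omega
  funext τ
  have h1 : lin τ v / N = lin τ v' / N + lin τ x := by
    rw [hv, lin_add, lin_smul_int]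
    push_cast
    field_simp
  have h2 : ((v 0 : ℤ) : ℂ) = (v' 0 : ℤ) + (N : ℂ) * (x 0 : ℤ) := by
    rw [hv]
    simp
  rw [Zv, Zv, h1, FF_add_lin, h2]
  field_simp
  ring

end Fermat.Agent.S48.B
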