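/-
S48 (Deligne-Serre), node B = `EisensteinOne`.  TASK B-11.   Sub-architect: helper297.
Helper lemmas: same file, namespace `Fermat.Agent.S48.B.LamDiff`.

It suffices to prove differentiability on `ball 0 r` for every `r < 1` (a point of `ball 0 1` has such a ball as a
neighbourhood).  On `ball 0 r`: `differentiableOn_tsum_of_summable_norm` with the bound `2 r^(m+1)/(1-r)`:
the exponents satisfy `N(m+1) - a ≥ m+1` (as `a < N`) and `N(m+1)+a ≥ m+1`, so `‖x‖ ≤ r^(m+1) ≤ r < 1` and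
`‖lam x‖ ≤ ‖x‖/(1-‖x‖) ≤ r^(m+1)/(1-r)`; each term is differentiable since `1 - x ≠ 0`.
-/
import Fermat.Agent.S48.B.Defs

set_option autoImplicit false

noncomputable section

namespace Fermat.Agent.S48.B

open UpperHalfPlane hiding I
open Complex Filter Topology EisensteinSeries Matrix CongruenceSubgroup
open scoped Real MatrixGroups Manifold ModularForm

local notation "𝕢" => Function.Periodic.qParam

namespace LamDiff

/-- the size of `c t^n` on the ball of radius `r`. -/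
theorem norm_mul_pow_le {r : ℝ} (hr1 : r < 1) {c t : ℂ} (hc : ‖c‖ = 1) (ht : t ∈ Metric.ball (0 : ℂ) r)
    {m n : ℕ} (hn : m + 1 ≤ n) : ‖c * t ^ n‖ ≤ r ^ (m + 1) := by
  have ht' : ‖t‖ < r := by simpa using ht
  have hr0 : 0 ≤ r := (norm_nonneg t).trans ht'.le
  rw [norm_mul, hc, one_mul, norm_pow]
  calc ‖t‖ ^ n ≤ r ^ n := pow_le_pow_left₀ (norm_nonneg t) ht'.le n
    _ ≤ r ^ (m + 1) := pow_le_pow_of_le_one hr0 hr1.le hn

theorem pow_succ_le {r : ℝ} (hr0 : 0 ≤ r) (hr1 : r < 1) (m : ℕ) : r ^ (m + 1) ≤ r := by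
  calc r ^ (m + 1) ≤ r ^ 1 := pow_le_pow_of_le_one hr0 hr1.le (by omega)
    _ = r := pow_one r

theorem one_sub_ne_zero {x : ℂ} (hx : ‖x‖ < 1) : 1 - x ≠ 0 := by
  intro h
  have : x = 1 := (sub_eq_zero.mp h).symm
  rw [this, norm_one] at hx
  exact lt_irrefl _ hx

theorem norm_lam_le {r ρ : ℝ} (hr1 : r < 1) {x : ℂ} (hx : ‖x‖ ≤ ρ) (hρ : ρ ≤ r) :
    ‖lam x‖ ≤ ρ / (1 - r) := by
  have h1 : 1 - r ≤ ‖1 - x‖ := by
    have := norm_sub_norm_le (1 : ℂ) x
    rw [norm_one] at this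
    linarith
  have h2 : 0 < 1 - r := by linarith
  rw [lam, norm_div]
  exact div_le_div₀ ((norm_nonneg x).trans hx) hx h2 h1

theorem differentiableOn_lam_mul_pow {r : ℝ} (hr1 : r < 1) {c : ℂ} (hc : ‖c‖ = 1) {m n : ℕ}
    (hn : m + 1 ≤ n) : DifferentiableOn ℂ (fun t : ℂ => lam (c * t ^ n)) (Metric.ball 0 r) := by
  unfold lam
  refine DifferentiableOn.div (by fun_prop) (by fun_prop) ?_
  intro t ht
  have ht' : ‖t‖ < r := by simpa using ht
  have hr0 : 0 ≤ r := (norm_nonneg t).trans ht'.le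
  exact one_sub_ne_zero
    (((norm_mul_pow_le hr1 hc ht hn).trans (pow_succ_le hr0 hr1 m)).trans_lt hr1)

theorem le_mul_sub {N a : ℕ} (ha : a < N) (m : ℕ) : m + 1 ≤ N * (m + 1) - a := by
  have h1 : (a + 1) * (m + 1) ≤ N * (m + 1) := Nat.mul_le_mul_right (m + 1) ha
  have h2 : (a + 1) * (m + 1) = a * m + a + m + 1 := by ring
  omega

theorem le_mul_add {N a : ℕ} (ha : a < N) (m : ℕ) : m + 1 ≤ N * (m + 1) + a := by
  have h1 : 1 * (m + 1) ≤ N * (m + 1) := Nat.mul_le_mul_right (m + 1) (by omega)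
  omega

theorem differentiableOn_ball (N a : ℕ) (ha : a < N) (ζ : ℂ) (hζ : ‖ζ‖ = 1) {r : ℝ} (hr0 : 0 ≤ r)
    (hr1 : r < 1) : DifferentiableOn ℂ (lamSum N a ζ) (Metric.ball 0 r) := by
  have hζ' : ‖ζ⁻¹‖ = 1 := by rw [norm_inv, hζ, inv_one]
  have hsum : Summable fun m : ℕ => 2 * (r ^ (m + 1) / (1 - r)) := by
    have h := (summable_geometric_of_lt_one hr0 hr1).mul_left (2 * (r / (1 - r)))
    refine h.congr fun m => ?_
    rw [pow_succ]
    ring
  refine differentiableOn_tsum_of_summable_norm hsum (fun m => ?_) Metric.isOpen_ball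
    (fun m t ht => ?_)
  · exact (differentiableOn_lam_mul_pow hr1 hζ' (le_mul_sub ha m)).sub
      (differentiableOn_lam_mul_pow hr1 hζ (le_mul_add ha m))
  · have h1 := norm_lam_le hr1 (norm_mul_pow_le hr1 hζ' ht (le_mul_sub ha m))
      (pow_succ_le hr0 hr1 m)
    have h2 := norm_lam_le hr1 (norm_mul_pow_le hr1 hζ ht (le_mul_add ha m))
      (pow_succ_le hr0 hr1 m)
    calc ‖lam (ζ⁻¹ * t ^ (N * (m + 1) - a)) - lam (ζ * t ^ (N * (m + 1) + a))‖
        ≤ ‖lam (ζ⁻¹ * t ^ (N * (m + 1) - a))‖ + ‖lam (ζ * t ^ (N * (m + 1) + a))‖ :=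
          norm_sub_le _ _
      _ ≤ 2 * (r ^ (m + 1) / (1 - r)) := by linarith

end LamDiff

theorem differentiableOn_lamSum (N a : ℕ) (ha : a < N) (ζ : ℂ) (hζ : ‖ζ‖ = 1) :
    DifferentiableOn ℂ (lamSum N a ζ) (Metric.ball 0 1) := by
  intro t ht
  have ht' : ‖t‖ < 1 := by simpa using ht
  obtain ⟨r, hr, hr1⟩ := exists_between ht'
  have hr0 : 0 ≤ r := (norm_nonneg t).trans hr.le
  have h := LamDiff.differentiableOn_ball N a ha ζ hζ hr0 hr1
  have hmem : t ∈ Metric.ball (0 : ℂ) r := by simpa using hr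
  exact (h.differentiableAt (Metric.isOpen_ball.mem_nhds hmem)).differentiableWithinAt

end Fermat.Agent.S48.B
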