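/-
S48 (Deligne-Serre), node B = `EisensteinOne`.  TASK B-12.   Sub-architect: helper297.
The statements are FROZEN (proofs by helper230).
Helper lemmas: same file, namespace `Fermat.Agent.S48.B.LamEq`.

`t = 𝕢 N τ = cexp (2πi τ / N)` (`Function.Periodic.qParam`), `ζ = cexp (2πi b/N)`, `u = (aτ+b)/N`.
`Y := cexp (2πi (u + (m+1)τ)) = ζ t^(N(m+1)+a)`, `cexp (2πi (u - (m+1)τ)) = X⁻¹` with `X = ζ⁻¹ t^(N(m+1)-a)`;
`‖X‖, ‖Y‖ < 1`, `X ≠ 0`.  By `pcot_eq_exp`: `pcot (u + (m+1)τ) = -πi (1 + 2 lam Y)`,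
`pcot (u - (m+1)τ) = πi (1 + 2 lam X)`, so `cotPair τ u m = 2πi (lam X - lam Y)`; `tsum_mul_left`.
-/
import Fermat.Agent.S48.B.CotLim

set_option autoImplicit false

noncomputable section

namespace Fermat.Agent.S48.B

open UpperHalfPlane hiding I
open Complex Filter Topology EisensteinSeries Matrix CongruenceSubgroup
open scoped Real MatrixGroups Manifold ModularForm

local notation "𝕢" => Function.Periodic.qParam

namespace LamEq

theorem ratio_eq_lam {E : ℂ} (hE : ‖E‖ < 1) : (1 + E) / (1 - E) = 1 + 2 * lam E := by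
  have h1 : 1 - E ≠ 0 := by
    intro h
    have : E = 1 := by linear_combination -h
    rw [this, norm_one] at hE
    exact lt_irrefl _ hE
  unfold lam
  field_simp
  ring

theorem ratio_inv_eq_lam {X : ℂ} (hX0 : X ≠ 0) (hX : ‖X‖ < 1) :
    (1 + X⁻¹) / (1 - X⁻¹) = -(1 + 2 * lam X) := by
  have h1 : 1 - X ≠ 0 := by
    intro h
    have : X = 1 := by linear_combination -h
    rw [this, norm_one] at hX
    exact lt_irrefl _ hX
  have h2 : X - 1 ≠ 0 := by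
    intro h
    exact h1 (by linear_combination -h)
  have h3 : 1 - X⁻¹ ≠ 0 := by
    intro h
    apply h2
    field_simp at h
    linear_combination h
  unfold lam
  field_simp
  ring

theorem norm_zeta (N : ℕ) (b : ℤ) : ‖cexp (2 * π * I * b / N)‖ = 1 := by
  have : (2 * π * I * b / N : ℂ) = ((2 * π * b / N : ℝ) : ℂ) * I := by
    push_cast
    ring
  rw [this, Complex.norm_exp_ofReal_mul_I]

theorem norm_t_lt_one (N : ℕ) (hN : 0 < N) (τ : ℍ) : ‖𝕢 N τ‖ < 1 :=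
  Function.Periodic.norm_qParam_lt_one (by exact_mod_cast hN) τ.im_pos

theorem norm_zeta_mul_pow_lt (N : ℕ) (hN : 0 < N) (b : ℤ) (τ : ℍ) (n : ℕ) (hn : n ≠ 0) :
    ‖cexp (2 * π * I * b / N) * 𝕢 N τ ^ n‖ < 1 := by
  rw [norm_mul, norm_zeta, one_mul, norm_pow]
  exact pow_lt_one₀ (norm_nonneg _) (norm_t_lt_one N hN τ) hn

theorem norm_zeta_inv_mul_pow_lt (N : ℕ) (hN : 0 < N) (b : ℤ) (τ : ℍ) (n : ℕ) (hn : n ≠ 0) :
    ‖(cexp (2 * π * I * b / N))⁻¹ * 𝕢 N τ ^ n‖ < 1 := by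
  rw [norm_mul, norm_inv, norm_zeta, inv_one, one_mul, norm_pow]
  exact pow_lt_one₀ (norm_nonneg _) (norm_t_lt_one N hN τ) hn

theorem exp_add_eq (N a : ℕ) (hN : 0 < N) (b : ℤ) (τ : ℍ) (k : ℕ) :
    cexp (2 * π * I * (lin τ ![(a : ℤ), b] / N + k * τ))
      = cexp (2 * π * I * b / N) * 𝕢 N τ ^ (N * k + a) := by
  have hN' : (N : ℂ) ≠ 0 := by exact_mod_cast hN.ne'
  rw [Function.Periodic.qParam, ← Complex.exp_nat_mul, ← Complex.exp_add, lin_cons]
  congr 1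
  push_cast
  field_simp
  ring

theorem exp_sub_eq (N a : ℕ) (hN : 0 < N) (b : ℤ) (τ : ℍ) (k : ℕ) (hk : a ≤ N * k) :
    cexp (2 * π * I * (lin τ ![(a : ℤ), b] / N - k * τ))
      = ((cexp (2 * π * I * b / N))⁻¹ * 𝕢 N τ ^ (N * k - a))⁻¹ := by
  have hN' : (N : ℂ) ≠ 0 := by exact_mod_cast hN.ne'
  rw [Function.Periodic.qParam, ← Complex.exp_nat_mul, ← Complex.exp_neg, ← Complex.exp_add,
    ← Complex.exp_neg, lin_cons]
  congr 1
  rw [Nat.cast_sub hk]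
  push_cast
  field_simp
  ring

theorem cotPair_eq (N a : ℕ) (ha : a < N) (b : ℤ) (τ : ℍ) (m : ℕ) :
    cotPair τ (lin τ ![(a : ℤ), b] / N) m = 2 * π * I *
      (lam ((cexp (2 * π * I * b / N))⁻¹ * 𝕢 N τ ^ (N * (m + 1) - a))
        - lam (cexp (2 * π * I * b / N) * 𝕢 N τ ^ (N * (m + 1) + a))) := by
  have hN : 0 < N := by omega
  have hle : N ≤ N * (m + 1) := Nat.le_mul_of_pos_right N (Nat.succ_pos m)
  have hk : a ≤ N * (m + 1) := by omega
  have e1 := exp_add_eq N a hN b τ (m + 1)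
  have e2 := exp_sub_eq N a hN b τ (m + 1) hk
  push_cast at e1 e2
  unfold cotPair
  rw [pcot_eq_exp, pcot_eq_exp, e1, e2,
    ratio_eq_lam (norm_zeta_mul_pow_lt N hN b τ _ (by omega)),
    ratio_inv_eq_lam (X := (cexp (2 * π * I * b / N))⁻¹ * 𝕢 N τ ^ (N * (m + 1) - a))
      (mul_ne_zero (inv_ne_zero (Complex.exp_ne_zero _))
      (pow_ne_zero _ (Complex.exp_ne_zero _)))
      (norm_zeta_inv_mul_pow_lt N hN b τ _ (by omega))]
  ring

end LamEq

open LamEq in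
theorem FF_eq_lamSum (N a : ℕ) (ha : a < N) (b : ℤ) (τ : ℍ) :
    FF τ (lin τ ![(a : ℤ), b] / N) = pcot (lin τ ![(a : ℤ), b] / N) +
      2 * π * I * lamSum N a (cexp (2 * π * I * b / N)) (𝕢 N τ) := by
  unfold FF lamSum
  rw [← tsum_mul_left]
  congr 1
  exact tsum_congr fun m => cotPair_eq N a ha b τ m

open LamEq in
theorem pcot_eq_lam (N a : ℕ) (ha0 : 0 < a) (ha : a < N) (b : ℤ) (τ : ℍ) :
    pcot (lin τ ![(a : ℤ), b] / N) =
      -(π * I) * (1 + 2 * lam (cexp (2 * π * I * b / N) * 𝕢 N τ ^ a)) := by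
  have hN : 0 < N := by omega
  have e0 := exp_add_eq N a hN b τ 0
  simp only [Nat.cast_zero, zero_mul, add_zero, mul_zero, zero_add] at e0
  rw [pcot_eq_exp, e0, ratio_eq_lam (norm_zeta_mul_pow_lt N hN b τ a ha0.ne')]

end Fermat.Agent.S48.B
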