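/-
S48 (Deligne-Serre), node B = `EisensteinOne`.  TASK B-14.   Sub-architect: helper297.
Helper lemmas: same file, namespace `Fermat.Agent.S48.B.Hol`.

By `Zv_congr` replace `v` by `![a, v 1]` with `a = (v 0 % N).toNat < N`.  Then `Zv N ![a,b] τ = Φ (𝕢 N τ)` with
`Φ t = c₀(t) + 2πi a/N + 2πi lamSum N a ζ t`, `c₀ = pcot (b/N)` (constant) if `a = 0`, and
`c₀(t) = -πi (1 + 2 lam (ζ t^a))` if `0 < a` (`FF_eq_lamSum`, `pcot_eq_lam`); `Φ` is differentiable on the unit ball
(`differentiableOn_lamSum`; `lam (ζ t^a)` since `‖ζ t^a‖ < 1`).  Conclude by `mdiff_comp_qParam`,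
`isBoundedAtImInfty_comp_qParam`.
-/
import Fermat.Agent.S48.B.Congr
import Fermat.Agent.S48.B.LamDiff
import Fermat.Agent.S48.B.LamEq
import Fermat.Agent.S48.B.CompQ

set_option autoImplicit false

noncomputable section

namespace Fermat.Agent.S48.B

open UpperHalfPlane hiding I
open Complex Filter Topology EisensteinSeries Matrix CongruenceSubgroup
open scoped Real MatrixGroups Manifold ModularForm

local notation "𝕢" => Function.Periodic.qParam

namespace Hol

/-- `lam (c t^n)` is holomorphic on the open unit disc. -/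
theorem differentiableOn_lam_unit {c : ℂ} (hc : ‖c‖ = 1) {n : ℕ} (hn : n ≠ 0) :
    DifferentiableOn ℂ (fun t : ℂ => lam (c * t ^ n)) (Metric.ball 0 1) := by
  unfold lam
  refine DifferentiableOn.div (by fun_prop) (by fun_prop) ?_
  intro t ht
  have ht' : ‖t‖ < 1 := by simpa using ht
  refine LamDiff.one_sub_ne_zero ?_
  rw [norm_mul, hc, one_mul, norm_pow]
  exact pow_lt_one₀ (norm_nonneg _) ht' hn

/-- The function of `q_N` representing `Zv N ![a, b]`. -/
def Phi (N a : ℕ) (b : ℤ) (t : ℂ) : ℂ :=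
  (if a = 0 then pcot (b / N) else -(π * I) * (1 + 2 * lam (cexp (2 * π * I * b / N) * t ^ a))) +
    2 * π * I * lamSum N a (cexp (2 * π * I * b / N)) t + 2 * π * I * a / N

theorem differentiableOn_Phi (N a : ℕ) (ha : a < N) (b : ℤ) :
    DifferentiableOn ℂ (Phi N a b) (Metric.ball 0 1) := by
  have h1 := differentiableOn_lamSum N a ha (cexp (2 * π * I * b / N)) (LamEq.norm_zeta N b)
  unfold Phi
  refine DifferentiableOn.add (DifferentiableOn.add ?_ (h1.const_mul _))
    (differentiableOn_const _)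
  by_cases h0 : a = 0
  · simp only [h0, if_true]
    exact differentiableOn_const _
  · simp only [h0, if_false]
    exact (((differentiableOn_lam_unit (LamEq.norm_zeta N b) h0).const_mul 2).const_add 1).const_mul _

theorem Zv_eq_Phi (N a : ℕ) (ha : a < N) (b : ℤ) :
    Zv N ![(a : ℤ), b] = fun τ : ℍ => Phi N a b (𝕢 (N : ℝ) τ) := by
  funext τ
  unfold Zv Phi
  rw [FF_eq_lamSum N a ha b τ]
  by_cases h0 : a = 0
  · subst h0
    simp [lin]
  · rw [pcot_eq_lam N a (Nat.pos_of_ne_zero h0) ha b τ]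
    simp [h0]

/-- Reduction of the first coordinate modulo `N`. -/
theorem exists_red (N : ℕ) [NeZero N] (v : Fin 2 → ℤ) :
    ∃ a : ℕ, a < N ∧ Zv N v = Zv N ![(a : ℤ), v 1] := by
  have hN : (0 : ℤ) < N := by exact_mod_cast Nat.pos_of_ne_zero (NeZero.ne N)
  have h0 : 0 ≤ v 0 % N := Int.emod_nonneg _ hN.ne'
  have h1 : v 0 % N < N := Int.emod_lt_of_pos _ hN
  refine ⟨(v 0 % N).toNat, by omega, Zv_congr N ?_⟩
  intro i
  fin_cases i
  · simp only [Fin.zero_eta, Matrix.cons_val_zero, Int.toNat_of_nonneg h0]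
    exact Int.dvd_self_sub_emod
  · simp

end Hol

theorem mdiff_Zv (N : ℕ) [NeZero N] (v : Fin 2 → ℤ) : MDiff (Zv N v) := by
  obtain ⟨a, ha, h⟩ := Hol.exists_red N v
  rw [h, Hol.Zv_eq_Phi N a ha]
  exact mdiff_comp_qParam (Hol.differentiableOn_Phi N a ha (v 1))
    (by exact_mod_cast Nat.pos_of_ne_zero (NeZero.ne N))

theorem isBoundedAtImInfty_Zv (N : ℕ) [NeZero N] (v : Fin 2 → ℤ) :
    IsBoundedAtImInfty (Zv N v) := by
  obtain ⟨a, ha, h⟩ := Hol.exists_red N v
  rw [h, Hol.Zv_eq_Phi N a ha]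
  exact isBoundedAtImInfty_comp_qParam (Hol.differentiableOn_Phi N a ha (v 1))
    (by exact_mod_cast Nat.pos_of_ne_zero (NeZero.ne N))

end Fermat.Agent.S48.B
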