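/-
S48 (Deligne-Serre), node B = `EisensteinOne`.  TASK B-15.   Sub-architect: helper297.
Proved by helper266.  The statements are FROZEN (kept verbatim).
Helper lemmas: same file, namespace `Fermat.Agent.S48.B.Lambert`.

Lambert series.  `lam_eq_tsum`: geometric series.
`hasSum_lambert`: the family `(m,k) ↦ f k q^(m k)` is summable on `ℕ+ × ℕ+` (norm `≤ C ‖q‖^(m k)`), regroup by the value
`n = m k` (Mathlib `sigmaAntidiagonalEquivProd`).  `hasSum_lam_sub_lam`: `f k = ζ⁻¹^k - ζ^k`, `C = 2`, and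
`lam (ζ q^(m+1)) = ∑_k ζ^(k+1) q^((m+1)(k+1))`.
-/
import Fermat.Agent.S48.B.Defs

set_option autoImplicit false

noncomputable section

namespace Fermat.Agent.S48.B

open UpperHalfPlane hiding I
open Complex Filter Topology EisensteinSeries Matrix CongruenceSubgroup
open scoped Real MatrixGroups Manifold ModularForm

local notation "𝕢" => Function.Periodic.qParam

namespace Lambert

lemma summable_prod (f : ℕ → ℂ) (C : ℝ) (hf : ∀ k, ‖f k‖ ≤ C) {q : ℂ} (hq : ‖q‖ < 1) :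
    Summable fun c : ℕ+ × ℕ+ => f c.2 * q ^ (c.1 * c.2 : ℕ) := by
  have h := (summable_prod_mul_pow (𝕜 := ℂ) 0 hq).norm.mul_left C
  refine Summable.of_norm_bounded h fun c => ?_
  simp only [pow_zero, one_mul, norm_mul]
  gcongr
  exact hf _

lemma hasSum_pnat (f : ℕ → ℂ) (C : ℝ) (hf : ∀ k, ‖f k‖ ≤ C) {q : ℂ} (hq : ‖q‖ < 1) :
    HasSum (fun n : ℕ+ => (∑ k ∈ (n : ℕ).divisors, f k) * q ^ (n : ℕ))
      (∑' c : ℕ+ × ℕ+, f c.2 * q ^ (c.1 * c.2 : ℕ)) := by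
  have hs := summable_prod f C hf hq
  have h1 := (sigmaAntidiagonalEquivProd.hasSum_iff).mpr hs.hasSum
  have h2 := h1.sigma (fun n => hasSum_fintype _)
  convert h2 using 2 with n
  simp only [Function.comp_apply, sigmaAntidiagonalEquivProd, divisorsAntidiagonalFactors,
    PNat.mk_coe, Equiv.coe_fn_mk, Finset.univ_eq_attach]
  rw [(n : ℕ).divisorsAntidiagonal.sum_attach (fun x : ℕ × ℕ => f x.2 * q ^ (x.1 * x.2)),
    Nat.sum_divisorsAntidiagonal' (fun x y => f y * q ^ (x * y)), Finset.sum_mul]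
  refine Finset.sum_congr rfl fun i hi => ?_
  rw [Nat.div_mul_cancel (Nat.dvd_of_mem_divisors hi)]

end Lambert

theorem lam_eq_tsum {x : ℂ} (hx : ‖x‖ < 1) : HasSum (fun k : ℕ => x ^ (k + 1)) (lam x) := by
  have h := (hasSum_geometric_of_norm_lt_one hx).mul_left x
  simpa [lam, pow_succ', div_eq_mul_inv] using h

theorem hasSum_lambert (f : ℕ → ℂ) (C : ℝ) (hf : ∀ k, ‖f k‖ ≤ C) {q : ℂ} (hq : ‖q‖ < 1) :
    HasSum (fun n : ℕ => (∑ k ∈ (n + 1).divisors, f k) * q ^ (n + 1))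
      (∑' m : ℕ, ∑' k : ℕ, f (k + 1) * q ^ ((m + 1) * (k + 1))) := by
  have h := Lambert.hasSum_pnat f C hf hq
  have h' := (hasSum_pnat_iff_hasSum_succ
    (f := fun n : ℕ => (∑ k ∈ n.divisors, f k) * q ^ n)).mp h
  convert h' using 1
  rw [(Lambert.summable_prod f C hf hq).tsum_prod,
    tsum_pnat_eq_tsum_succ (f := fun m : ℕ => ∑' b : ℕ+, f b * q ^ (m * b : ℕ))]
  refine tsum_congr fun m => ?_
  rw [tsum_pnat_eq_tsum_succ (f := fun k : ℕ => f k * q ^ ((m + 1) * k))]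

theorem hasSum_lam_sub_lam {ζ q : ℂ} (hζ : ‖ζ‖ = 1) (hq : ‖q‖ < 1) :
    HasSum (fun n : ℕ => (∑ k ∈ (n + 1).divisors, (ζ⁻¹ ^ k - ζ ^ k)) * q ^ (n + 1))
      (∑' m : ℕ, (lam (ζ⁻¹ * q ^ (m + 1)) - lam (ζ * q ^ (m + 1)))) := by
  have hf : ∀ k : ℕ, ‖ζ⁻¹ ^ k - ζ ^ k‖ ≤ 2 := fun k => by
    refine (norm_sub_le _ _).trans ?_
    simp only [norm_pow, norm_inv, hζ, inv_one, one_pow]
    norm_num
  have h := hasSum_lambert (fun k => ζ⁻¹ ^ k - ζ ^ k) 2 hf hq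
  convert h using 1
  refine tsum_congr fun m => ?_
  have hqm : ‖q ^ (m + 1)‖ < 1 := by
    rw [norm_pow]; exact pow_lt_one₀ (norm_nonneg _) hq (Nat.succ_ne_zero _)
  have h1 : ‖ζ⁻¹ * q ^ (m + 1)‖ < 1 := by rw [norm_mul, norm_inv, hζ]; simpa using hqm
  have h2 : ‖ζ * q ^ (m + 1)‖ < 1 := by rw [norm_mul, hζ]; simpa using hqm
  have h3 := (lam_eq_tsum h1).sub (lam_eq_tsum h2)
  rw [← h3.tsum_eq]
  refine tsum_congr fun k => ?_
  rw [mul_pow, mul_pow, ← pow_mul, sub_mul]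

end Fermat.Agent.S48.B
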