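/-
S48 (Deligne-Serre), node B = `EisensteinOne`.  TASK B-16.   Sub-architect: helper297.
Helper lemmas: same file, namespace `Fermat.Agent.S48.B.QExp`.

`Zv N ![0,b] τ = pcot (b/N) + 2πi lamSum N 0 ζ (𝕢 N τ)` (`FF_eq_lamSum` with `a = 0`, `lin τ ![0,b] = b`), and
`(𝕢 N τ)^(N(m+1)) = (𝕢 1 τ)^(m+1)`; `hasSum_lam_sub_lam`, `.mul_left (2πi)`, then shift the index
(`hasSum_nat_add_iff' 1` as in Mathlib `hasSum_qExpansion_E2`).
-/
import Fermat.Agent.S48.B.LamEq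
import Fermat.Agent.S48.B.Lambert

set_option autoImplicit false

noncomputable section

namespace Fermat.Agent.S48.B

open UpperHalfPlane hiding I
open Complex Filter Topology EisensteinSeries Matrix CongruenceSubgroup
open scoped Real MatrixGroups Manifold ModularForm

local notation "𝕢" => Function.Periodic.qParam

namespace QExp

theorem qParam_pow (N : ℕ) [NeZero N] (τ : ℂ) (m : ℕ) :
    𝕢 N τ ^ (N * m) = 𝕢 1 τ ^ m := by
  have hN : (N : ℂ) ≠ 0 := Nat.cast_ne_zero.mpr (NeZero.ne N)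
  rw [pow_mul]
  congr 1
  simp only [Function.Periodic.qParam]
  rw [← Complex.exp_nat_mul]
  congr 1
  push_cast
  field_simp

theorem norm_zeta (N : ℕ) (b : ℤ) : ‖cexp (2 * π * I * b / N)‖ = 1 := by
  have : (2 * π * I * b / N : ℂ) = ((2 * π * b / N : ℝ) : ℂ) * I := by
    push_cast; ring
  rw [this, Complex.norm_exp_ofReal_mul_I]

theorem lin_zero (τ : ℍ) (b : ℤ) : lin τ ![0, b] = b := by
  simp [lin]

end QExp

theorem hasSum_Zv_zero (N : ℕ) [NeZero N] (b : ℤ) (τ : ℍ) :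
    HasSum (fun n : ℕ => cZ N b n • 𝕢 1 τ ^ n) (Zv N ![0, b] τ) := by
  have hNpos : 0 < N := Nat.pos_of_ne_zero (NeZero.ne N)
  set ζ : ℂ := cexp (2 * π * I * b / N) with hζdef
  have hζ : ‖ζ‖ = 1 := QExp.norm_zeta N b
  have hq : ‖𝕢 1 (τ : ℂ)‖ < 1 := by
    have := UpperHalfPlane.norm_qParam_lt_one 1 τ
    simpa using this
  have h1 := (hasSum_lam_sub_lam hζ hq).mul_left (2 * π * I)
  have hFF := FF_eq_lamSum N 0 hNpos b τ
  have hlam : lamSum N 0 ζ (𝕢 N τ) =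
      ∑' m : ℕ, (lam (ζ⁻¹ * 𝕢 1 (τ : ℂ) ^ (m + 1)) - lam (ζ * 𝕢 1 (τ : ℂ) ^ (m + 1))) := by
    unfold lamSum
    refine tsum_congr fun m => ?_
    simp only [Nat.sub_zero, Nat.add_zero, QExp.qParam_pow]
  have hZ : Zv N ![0, b] τ = pcot (b / N) + 2 * π * I *
      ∑' m : ℕ, (lam (ζ⁻¹ * 𝕢 1 (τ : ℂ) ^ (m + 1)) - lam (ζ * 𝕢 1 (τ : ℂ) ^ (m + 1))) := by
    unfold Zv
    have e : (![((0 : ℕ) : ℤ), b] : Fin 2 → ℤ) = ![0, b] := by simp
    rw [e] at hFF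
    rw [hFF, QExp.lin_zero, hlam]
    simp
  rw [hZ, ← hasSum_nat_add_iff' 1]
  simp only [Finset.range_one, Finset.sum_singleton, pow_zero, smul_eq_mul, mul_one]
  have hc0 : cZ N b 0 = pcot (b / N) := by simp [cZ]
  rw [hc0, add_sub_cancel_left]
  have hfun : (fun n : ℕ => cZ N b (n + 1) * 𝕢 1 (τ : ℂ) ^ (n + 1)) =
      fun n : ℕ => 2 * π * I *
        ((∑ k ∈ (n + 1).divisors, (ζ⁻¹ ^ k - ζ ^ k)) * 𝕢 1 (τ : ℂ) ^ (n + 1)) := by
    funext n
    have hn : n + 1 ≠ 0 := Nat.succ_ne_zero n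
    simp only [cZ, hn, if_false]
    ring
  rw [hfun]
  exact h1

end Fermat.Agent.S48.B
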