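/-
S48 (Deligne-Serre), node B = `EisensteinOne`.  TASK B-2.   Sub-architect: helper297.
The statements are FROZEN.  Proofs: helper297.
Helper lemmas: same file, namespace `Fermat.Agent.S48.B.Homog`.

`lin_smul`: `UpperHalfPlane.specialLinearGroup_apply` / `coe_smul`, `denom`, `num`; `field_simp; ring` with
`denom_ne_zero`.  `zt_smul`: termwise `ztTerm (γ • τ) (u / j) x = j * ztTerm τ u (x ᵥ* γ)` (`x = 0 ↔ x ᵥ* γ = 0`),
then `Equiv.tsum_eq` for `x ↦ x ᵥ* γ` (copy `vecMulEquiv` from `Fermat/Agent/Lib/EisensteinChar.lean` under a fresh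
name, or import that file) and `tsum_mul_left`.  No summability needed.
-/
import Fermat.Agent.S48.B.Basic

set_option autoImplicit false

noncomputable section

namespace Fermat.Agent.S48.B

open UpperHalfPlane hiding I
open Complex Filter Topology EisensteinSeries Matrix CongruenceSubgroup
open scoped Real MatrixGroups Manifold ModularForm

local notation "𝕢" => Function.Periodic.qParam

namespace Homog

/-- Right multiplication by an element of `SL(2, ℤ)` as a permutation of `Fin 2 → ℤ`. -/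
def vecMulEquiv (γ : SL(2, ℤ)) : (Fin 2 → ℤ) ≃ (Fin 2 → ℤ) where
  toFun v := v ᵥ* γ
  invFun v := v ᵥ* ↑(γ⁻¹)
  left_inv v := by
    simp_rw [vecMul_vecMul, ← Matrix.SpecialLinearGroup.coe_mul, mul_inv_cancel,
      Matrix.SpecialLinearGroup.coe_one, vecMul_one]
  right_inv v := by
    simp_rw [vecMul_vecMul, ← Matrix.SpecialLinearGroup.coe_mul, inv_mul_cancel,
      Matrix.SpecialLinearGroup.coe_one, vecMul_one]

end Homog

theorem lin_smul (γ : SL(2, ℤ)) (τ : ℍ) (x : Fin 2 → ℤ) :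
    lin (γ • τ) x = lin τ (x ᵥ* (γ : Matrix (Fin 2) (Fin 2) ℤ)) / denom γ τ := by
  have hj : denom γ τ ≠ 0 := denom_ne_zero γ τ
  rw [eq_div_iff hj, lin, lin, UpperHalfPlane.specialLinearGroup_apply]
  have hj' : ((γ 1 0 : ℤ) : ℂ) * τ + ((γ 1 1 : ℤ) : ℂ) ≠ 0 := by
    simpa [denom] using hj
  have hd : denom γ τ = ((γ 1 0 : ℤ) : ℂ) * τ + ((γ 1 1 : ℤ) : ℂ) := by
    simp [denom]
  rw [hd]
  simp only [Matrix.vecMul, dotProduct, Fin.sum_univ_two, Int.cast_add, Int.cast_mul,
    algebraMap_int_eq, eq_intCast, Complex.ofReal_intCast]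
  rw [add_mul, mul_assoc, div_mul_cancel₀ _ hj']
  ring

theorem zt_smul (γ : SL(2, ℤ)) (τ : ℍ) (u : ℂ) :
    zt (γ • τ) (u / denom γ τ) = denom γ τ * zt τ u := by
  have hj : denom γ τ ≠ 0 := denom_ne_zero γ τ
  rw [zt, zt, ← (Homog.vecMulEquiv γ).tsum_eq (ztTerm τ u), ← tsum_mul_left]
  refine tsum_congr fun x => ?_
  change _ = denom γ τ * ztTerm τ u (x ᵥ* (γ : Matrix (Fin 2) (Fin 2) ℤ))
  have h0 : x ᵥ* (γ : Matrix (Fin 2) (Fin 2) ℤ) = 0 ↔ x = 0 := by
    constructor
    · intro h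
      have := (Homog.vecMulEquiv γ).injective (a₁ := x) (a₂ := 0)
        (by change x ᵥ* (γ : Matrix (Fin 2) (Fin 2) ℤ) = 0 ᵥ* (γ : Matrix (Fin 2) (Fin 2) ℤ)
            rw [h, Matrix.zero_vecMul])
      exact this
    · rintro rfl
      exact Matrix.zero_vecMul _
  by_cases hx : x = 0
  · rw [ztTerm, ztTerm, if_pos hx, if_pos (h0.mpr hx)]
    field_simp
  · rw [ztTerm, ztTerm, if_neg hx, if_neg (fun h => hx (h0.mp h)), lin_smul]
    set w := lin τ (x ᵥ* (γ : Matrix (Fin 2) (Fin 2) ℤ)) with hw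
    set j := denom γ τ with hjdef
    have e1 : 1 / (u / j - w / j) = j * (1 / (u - w)) := by
      rw [← sub_div, one_div_div, mul_one_div]
    have e2 : 1 / (w / j) = j * (1 / w) := by
      rw [one_div_div, mul_one_div]
    have e3 : u / j / (w / j) ^ 2 = j * (u / w ^ 2) := by
      rw [div_pow]
      by_cases hw0 : w = 0
      · simp [hw0]
      · field_simp
    rw [e1, e2, e3]
    ring

end Fermat.Agent.S48.B
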