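/-
S48 (Deligne-Serre), node B = `EisensteinOne`.  TASK B-3.   Sub-architect: helper297.
DONE (helper54): statements verbatim, all proofs complete.
Helper lemmas: same file, namespace `Fermat.Agent.S48.B.CotSum`.

Mittag-Leffler expansion of the cotangent, two-sided form.  Mathlib (`Analysis/SpecialFunctions/Trigonometric/Cotangent`):
`cot_series_rep' (hz : x ∈ ℂ_ℤ) : π * cot (π * x) - 1 / x = ∑' n : ℕ, (1 / (x - (n + 1)) + 1 / (x + (n + 1)))`,
`summable_cotTerm`.  Summability over `ℤ`: `1/(a-n) + 1/(b+n) = (a+b)/((a-n)(b+n)) = O(n^-2)`; or avoid it: build the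
`HasSum` over `ℤ` from two `HasSum`s over `ℕ`?  (NOT possible termwise: the one-sided sums diverge.)  So: prove
`Summable` over `ℤ` first (`Summable.of_nat_of_neg`/`summable_int_iff_summable_nat_and_neg` + comparison with
`1/n^2`, cf. `EisensteinSeries.linear_right_summable`, `summable_one_div_...`), then
compute the sum by `HasSum.sum_nat_of_sum_int`/`tsum_of_nat_of_neg_add_one`/`HasSum.int_rec` pairing `n+1` with `-(n+1)`.
-/
import Fermat.Agent.S48.B.Defs

set_option autoImplicit false

noncomputable section

namespace Fermat.Agent.S48.B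

open UpperHalfPlane hiding I
open Complex Filter Topology EisensteinSeries Matrix CongruenceSubgroup
open scoped Real MatrixGroups Manifold ModularForm

local notation "𝕢" => Function.Periodic.qParam

namespace CotSum

theorem summable_inv_mul (a b : ℂ) : Summable fun n : ℤ ↦ ((a - n) * (b + n))⁻¹ := by
  have h := (EisensteinSeries.linear_inv_isBigO_right 1 b).mul
      (EisensteinSeries.linear_inv_isBigO_right 1 a).comp_neg_int
  apply EisensteinSeries.summable_inv_of_isBigO_rpow_inv (a := 2) (by norm_cast)
  simpa [pow_two] using! h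

/-- sum over `ℤ` by pairing `n + 1` with `-(n + 1)`. -/
theorem hasSum_int_of_pair {f : ℤ → ℂ} (hf : Summable f) {s : ℂ}
    (h : HasSum (fun n : ℕ => f (n + 1) + f (-(n + 1))) s) : HasSum f (f 0 + s) := by
  have h1 : Summable fun n : ℕ => f (n + 1) :=
    hf.comp_injective (i := fun n : ℕ => (n : ℤ) + 1) (fun x y hxy => by
      simpa using hxy)
  have h2 : Summable fun n : ℕ => f (-(n + 1)) :=
    hf.comp_injective (i := fun n : ℕ => -((n : ℤ) + 1)) (fun x y hxy => by
      simpa using hxy)
  have h3 := HasSum.of_add_one_of_neg_add_one h1.hasSum h2.hasSum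
  have h4 : ∑' n : ℕ, f (n + 1) + ∑' n : ℕ, f (-(n + 1)) = s := by
    rw [← h1.tsum_add h2]
    exact h.tsum_eq
  convert h3 using 1
  rw [← h4]
  ring

theorem hasSum_cotTerm {a : ℂ} (ha : a ∈ Complex.integerComplement) :
    HasSum (fun n : ℕ => 1 / (a - (n + 1)) + 1 / (a + (n + 1))) (pcot a - 1 / a) := by
  have h := (summable_cotTerm ha).hasSum
  rw [← cot_series_rep' ha] at h
  exact h

theorem sub_intCast_ne_zero {a : ℂ} (ha : a ∈ Complex.integerComplement) (n : ℤ) :
    a - n ≠ 0 := by
  have := Complex.integerComplement_add_ne_zero ha (-n)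
  simpa [sub_eq_add_neg] using this

end CotSum

open CotSum

theorem hasSum_inv_sub_add_inv_add {a b : ℂ} (ha : a ∈ Complex.integerComplement)
    (hb : b ∈ Complex.integerComplement) :
    HasSum (fun n : ℤ => 1 / (a - n) + 1 / (b + n)) (pcot a + pcot b) := by
  have hsum : Summable (fun n : ℤ => 1 / (a - n) + 1 / (b + n)) := by
    refine ((summable_inv_mul a b).mul_left (a + b)).congr fun n => ?_
    have h1 := sub_intCast_ne_zero ha n
    have h2 := Complex.integerComplement_add_ne_zero hb n
    field_simp
    ring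
  have h := hasSum_int_of_pair hsum (s := (pcot a - 1 / a) + (pcot b - 1 / b)) (by
    convert (hasSum_cotTerm ha).add (hasSum_cotTerm hb) using 2 with n
    push_cast
    rw [sub_neg_eq_add, ← sub_eq_add_neg]
    ring)
  convert h using 1
  simp
  ring

theorem hasSum_inv_sub_add_inv {a : ℂ} (ha : a ∈ Complex.integerComplement) :
    HasSum (fun n : ℤ => if n = 0 then 1 / a else 1 / (a - n) + 1 / n) (pcot a) := by
  have hsum : Summable (fun n : ℤ => if n = 0 then 1 / a else 1 / (a - n) + 1 / n) := by
    refine (((summable_inv_mul a 0).mul_left a).add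
      (hasSum_ite_eq (0 : ℤ) (1 / a)).summable).congr fun n => ?_
    by_cases hn : n = 0
    · simp [hn]
    · have h1 := sub_intCast_ne_zero ha n
      have h2 : (n : ℂ) ≠ 0 := by exact_mod_cast hn
      simp only [hn, if_false, zero_add, add_zero]
      field_simp
      ring
  have h := hasSum_int_of_pair hsum (s := pcot a - 1 / a) (by
    convert hasSum_cotTerm ha using 2 with n
    have h1 : ((n : ℤ) + 1) ≠ 0 := by omega
    have h2 : -((n : ℤ) + 1) ≠ 0 := by omega
    rw [if_neg h1, if_neg h2]
    push_cast
    rw [sub_neg_eq_add]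
    have h3 : ((n : ℂ) + 1) ≠ 0 := by exact_mod_cast h1
    field_simp
    ring)
  convert h using 1
  simp

end Fermat.Agent.S48.B
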