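/-
S48 (Deligne-Serre), node B = `EisensteinOne`.  TASK B-4.   Sub-architect: helper297.
The statements are FROZEN.  Proved by helper247.
Helper lemmas: same file, namespace `Fermat.Agent.S48.B.Rows`.

Row sums of the zeta function.  `m ≠ 0`: `ztTerm τ u ![m,n] = (1/(a - n) + 1/(b + n)) + u * eisSummand 2 ![m,n] τ` with
`a = u - mτ`, `b = mτ` (both in `ℂ_ℤ`: `hu`, resp. `im ≠ 0`); `hasSum_inv_sub_add_inv_add` +
`(e2Summand_summable m τ).hasSum.mul_left u`.  `m = 0`: `pcot (0 * τ) = pcot 0 = 0`,
`ztTerm τ u ![0,n] = (if n = 0 then 1/u else 1/(u-n) + 1/n) + u * eisSummand 2 ![0,n] τ`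
(`eisSummand 2 ![0,0] τ = 0 ^ (-2) = 0`); `hasSum_inv_sub_add_inv`.
-/
import Fermat.Agent.S48.B.Basic
import Fermat.Agent.S48.B.CotSum

set_option autoImplicit false

noncomputable section

namespace Fermat.Agent.S48.B

open UpperHalfPlane hiding I
open Complex Filter Topology EisensteinSeries Matrix CongruenceSubgroup
open scoped Real MatrixGroups Manifold ModularForm

local notation "𝕢" => Function.Periodic.qParam

theorem hasSum_row (τ : ℍ) {u : ℂ} (hu : ∀ x : Fin 2 → ℤ, u ≠ lin τ x) (m : ℤ) :
    HasSum (fun n : ℤ => ztTerm τ u ![m, n])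
      (pcot (u - m * τ) + pcot (m * τ) + u * e2Summand m τ) := by
  have hE : HasSum (fun n : ℤ => u * eisSummand 2 ![m, n] τ) (u * e2Summand m τ) :=
    (e2Summand_summable m τ).hasSum.mul_left u
  have heis : ∀ n : ℤ, eisSummand 2 ![m, n] τ = 1 / (m * τ + n) ^ 2 := by
    intro n
    simp [eisSummand, _root_.zpow_neg]
  rcases eq_or_ne m 0 with rfl | hm
  · have ha : u ∈ Complex.integerComplement := by
      rintro ⟨n, hn⟩
      exact hu ![0, n] (by rw [lin_cons, ← hn]; simp)
    have h1 := (hasSum_inv_sub_add_inv ha).add hE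
    have h2 : pcot (u - ((0 : ℤ) : ℂ) * τ) + pcot (((0 : ℤ) : ℂ) * τ) = pcot u := by
      simp [pcot_zero]
    rw [h2]
    refine h1.congr_fun ?_
    intro n
    rw [heis]
    unfold ztTerm
    by_cases hn : n = 0
    · subst hn
      simp
    · have hne : (![0, n] : Fin 2 → ℤ) ≠ 0 := by
        intro h
        exact hn (by simpa using congrFun h 1)
      rw [if_neg hne, if_neg hn, lin_cons]
      simp only [Int.cast_zero, zero_mul, zero_add]
      ring
  · have ha : u - m * τ ∈ Complex.integerComplement := by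
      rintro ⟨n, hn⟩
      exact hu ![m, n] (by rw [lin_cons, hn]; ring)
    have hb : (m : ℂ) * τ ∈ Complex.integerComplement := by
      rintro ⟨n, hn⟩
      have h0 : lin τ ![m, -n] = 0 := by
        rw [lin_cons, ← hn]
        push_cast
        ring
      rw [lin_eq_zero_iff] at h0
      exact hm (by simpa using congrFun h0 0)
    have h1 := (hasSum_inv_sub_add_inv_add ha hb).add hE
    refine h1.congr_fun ?_
    intro n
    rw [heis]
    unfold ztTerm
    have hne : (![m, n] : Fin 2 → ℤ) ≠ 0 := by
      intro h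
      exact hm (by simpa using congrFun h 0)
    rw [if_neg hne, lin_cons]
    ring

end Fermat.Agent.S48.B
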