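/-
S48 (Deligne-Serre), node B = `EisensteinOne`.  TASK B-5 (proofs: helper133).   Sub-architect: helper297.
Helper lemmas: same file, namespace `Fermat.Agent.S48.B.Partial`.

`summable_ztTerm` transported to `ℤ × ℤ` by `finTwoArrowEquiv ℤ`, then `HasSum.prod_fiberwise` with `hasSum_row` gives
`HasSum (fun m => row m) (zt τ u)` (unconditional), hence along `Finset.Icc (-M) M`.
`∑_{|m| ≤ M} pcot (m τ) = 0` (odd), `∑_{|m| ≤ M} e2Summand m τ → G2 τ`.
-/
import Fermat.Agent.S48.B.Summable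
import Fermat.Agent.S48.B.Rows

set_option autoImplicit false

noncomputable section

namespace Fermat.Agent.S48.B

open UpperHalfPlane hiding I
open Complex Filter Topology EisensteinSeries Matrix CongruenceSubgroup
open scoped Real MatrixGroups Manifold ModularForm

local notation "𝕢" => Function.Periodic.qParam

namespace Partial

theorem tendsto_Icc_atTop :
    Tendsto (fun M : ℕ => Finset.Icc (-(M : ℤ)) M) atTop atTop := by
  have h := (SummationFilter.symmetricIcc ℤ).le_atTop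
  rw [SummationFilter.symmetricIcc_eq_map_Icc_nat] at h
  exact h

theorem hasSum_rows (τ : ℍ) {u : ℂ} (hu : ∀ x : Fin 2 → ℤ, u ≠ lin τ x) :
    HasSum (fun m : ℤ => pcot (u - m * τ) + pcot (m * τ) + u * e2Summand m τ) (zt τ u) := by
  have h1 : HasSum (ztTerm τ u) (zt τ u) := (summable_ztTerm τ u).hasSum
  have h2 : HasSum (fun p : ℤ × ℤ => ztTerm τ u ![p.1, p.2]) (zt τ u) := by
    have := ((finTwoArrowEquiv ℤ).symm.hasSum_iff (f := ztTerm τ u) (a := zt τ u)).mpr h1
    exact this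
  exact h2.prod_fiberwise (fun m => hasSum_row τ hu m)

theorem sum_Icc_pcot_mul (τ : ℍ) (M : ℕ) :
    ∑ m ∈ Finset.Icc (-(M : ℤ)) M, pcot (m * τ) = 0 := by
  have h1 := sum_Icc_pcot τ 0 M
  have h2 : ∀ m : ℕ, cotPair τ 0 m = 0 := by
    intro m
    rw [cotPair, zero_sub, zero_add, pcot_neg, neg_add_cancel]
  rw [pcot_zero, Finset.sum_congr rfl (fun m _ => h2 m), Finset.sum_const_zero, add_zero] at h1
  have h3 : ∀ m : ℤ, pcot (m * τ) = - pcot (0 - m * τ) := by
    intro m
    rw [zero_sub, pcot_neg, neg_neg]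
  rw [Finset.sum_congr rfl (fun m _ => h3 m), Finset.sum_neg_distrib, h1, neg_zero]

theorem tendsto_sum_e2Summand (τ : ℍ) :
    Tendsto (fun M : ℕ => ∑ m ∈ Finset.Icc (-(M : ℤ)) M, e2Summand m τ) atTop (𝓝 (G2 τ)) := by
  have h := hasSum_e2Summand_symmetricIcc τ
  rw [← G2_eq_tsum_cexp] at h
  simpa [HasSum, -SummationFilter.symmetricIcc_filter, SummationFilter.symmetricIcc_eq_map_Icc_nat,
    Function.comp_def] using h

end Partial

theorem tendsto_sum_pcot (τ : ℍ) {u : ℂ} (hu : ∀ x : Fin 2 → ℤ, u ≠ lin τ x) :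
    Tendsto (fun M : ℕ => ∑ m ∈ Finset.Icc (-(M : ℤ)) M, pcot (u - m * τ)) atTop
      (𝓝 (zt τ u - u * G2 τ)) := by
  have h1 : Tendsto (fun M : ℕ => ∑ m ∈ Finset.Icc (-(M : ℤ)) M,
      (pcot (u - m * τ) + pcot (m * τ) + u * e2Summand m τ)) atTop (𝓝 (zt τ u)) :=
    (Partial.hasSum_rows τ hu).comp Partial.tendsto_Icc_atTop
  have h2 := h1.sub ((Partial.tendsto_sum_e2Summand τ).const_mul u)
  refine h2.congr fun M => ?_
  rw [Finset.sum_add_distrib, Finset.sum_add_distrib, Partial.sum_Icc_pcot_mul, add_zero,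
    ← Finset.mul_sum, add_sub_cancel_right]

end Fermat.Agent.S48.B
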