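/-
S48 (Deligne-Serre), node B = `EisensteinOne`.  TASK B-7.   Sub-architect: helper297.
The statements are FROZEN.  Proofs: helper297.
Helper lemmas: same file, namespace `Fermat.Agent.S48.B.ZtEq`.

`sum_Icc_pcot` rewrites the partial sums of `tendsto_sum_pcot` as `pcot u + ∑_{m < M} cotPair τ u m`, which tends to
`FF τ u` (`(summable_cotPair τ u).hasSum.tendsto_sum_nat`); `tendsto_nhds_unique`.
-/
import Fermat.Agent.S48.B.Partial
import Fermat.Agent.S48.B.CotLim

set_option autoImplicit false

noncomputable section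

namespace Fermat.Agent.S48.B

open UpperHalfPlane hiding I
open Complex Filter Topology EisensteinSeries Matrix CongruenceSubgroup
open scoped Real MatrixGroups Manifold ModularForm

local notation "𝕢" => Function.Periodic.qParam

theorem zt_eq (τ : ℍ) {u : ℂ} (hu : ∀ x : Fin 2 → ℤ, u ≠ lin τ x) :
    zt τ u = u * G2 τ + FF τ u := by
  have h1 := tendsto_sum_pcot τ hu
  simp_rw [sum_Icc_pcot] at h1
  have h2 : Tendsto (fun M : ℕ => pcot u + ∑ m ∈ Finset.range M, cotPair τ u m) atTop
      (𝓝 (FF τ u)) :=
    (summable_cotPair τ u).hasSum.tendsto_sum_nat.const_add _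
  have h3 := tendsto_nhds_unique h1 h2
  rw [← h3]
  ring

end Fermat.Agent.S48.B
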