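/-
S48 (Deligne-Serre), node B = `EisensteinOne`.  TASK B-9.   Sub-architect: helper297.
The statements are FROZEN.  Proofs: helper278.
Helper lemmas: same file, namespace `Fermat.Agent.S48.B.Transform`.

Let `j = denom γ τ`, `v' = v ᵥ* γ`, `u' = lin τ v' / N`.  `lin (γ • τ) v / N = u' / j` (`lin_smul`).
`Zv N v τ = zt τ u - u * G2 τ + 2πi v₀/N` (`zt_eq`, `div_ne_lin`; note `¬ ∀ i, N ∣ v' i` too: `v = v' ᵥ* γ⁻¹`).
`zt (γ • τ) (u'/j) = j * zt τ u'` (`zt_smul`); `G2 (γ • τ) = j² G2 τ - 2πi c j` with `c = γ 1 0`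
(Mathlib `EisensteinSeries.G2_slash_action`, `D2`, `ModularForm.SL_slash_apply`).  Remaining identity:
`c * lin τ v' + v 0 = j * v' 0`, from `det γ = 1` (`Matrix.det_fin_two`, `γ.det_coe`), `j = c τ + d` (`denom_apply`).
`Zv_slash`: `ModularForm.SL_slash_apply`, `zpow_neg_one`, `denom_ne_zero`.
-/
import Fermat.Agent.S48.B.ZtEq
import Fermat.Agent.S48.B.Homog

set_option autoImplicit false

noncomputable section

namespace Fermat.Agent.S48.B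

open UpperHalfPlane hiding I
open Complex Filter Topology EisensteinSeries Matrix CongruenceSubgroup
open scoped Real MatrixGroups Manifold ModularForm

local notation "𝕢" => Function.Periodic.qParam

namespace Transform

theorem not_dvd_vecMul (N : ℕ) (v : Fin 2 → ℤ) (hv : ¬ ∀ i, (N : ℤ) ∣ v i) (γ : SL(2, ℤ)) :
    ¬ ∀ i, (N : ℤ) ∣ (v ᵥ* (γ : Matrix (Fin 2) (Fin 2) ℤ)) i := by
  intro h
  apply hv
  have e : v = (v ᵥ* (γ : Matrix (Fin 2) (Fin 2) ℤ)) ᵥ*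
      ((γ⁻¹ : SL(2, ℤ)) : Matrix (Fin 2) (Fin 2) ℤ) := ((Homog.vecMulEquiv γ).left_inv v).symm
  intro i
  rw [e]
  generalize v ᵥ* (γ : Matrix (Fin 2) (Fin 2) ℤ) = w at h
  simp only [Matrix.vecMul, dotProduct, Fin.sum_univ_two]
  exact dvd_add (Dvd.dvd.mul_right (h 0) _) (Dvd.dvd.mul_right (h 1) _)

theorem G2_smul (γ : SL(2, ℤ)) (τ : ℍ) :
    G2 (γ • τ) = denom γ τ ^ 2 * G2 τ - 2 * π * I * ((γ 1 0 : ℤ) : ℂ) * denom γ τ := by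
  have h := congrFun (G2_slash_action γ) τ
  rw [ModularForm.SL_slash_apply, Pi.sub_apply, D2] at h
  have hj := denom_ne_zero γ τ
  have h2 : G2 (γ • τ) = (G2 τ - 2 * π * I * ((γ 1 0 : ℤ) : ℂ) / denom γ τ) * denom γ τ ^ 2 := by
    rw [← h, mul_assoc, _root_.zpow_neg, ← zpow_natCast (denom γ τ) 2]
    norm_num
  rw [h2]
  field_simp

theorem key_identity (γ : SL(2, ℤ)) (τ : ℍ) (v : Fin 2 → ℤ) :
    ((γ 1 0 : ℤ) : ℂ) * lin τ (v ᵥ* (γ : Matrix (Fin 2) (Fin 2) ℤ)) + v 0 =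
      denom γ τ * ((v ᵥ* (γ : Matrix (Fin 2) (Fin 2) ℤ)) 0 : ℤ) := by
  have hd : denom γ τ = ((γ 1 0 : ℤ) : ℂ) * τ + ((γ 1 1 : ℤ) : ℂ) := by
    simp [denom]
  have hdet : (γ 0 0 : ℤ) * γ 1 1 - γ 0 1 * γ 1 0 = 1 := by
    have := γ.det_coe
    rwa [Matrix.det_fin_two] at this
  have hdet' : ((γ 0 0 : ℤ) : ℂ) * ((γ 1 1 : ℤ) : ℂ) - ((γ 0 1 : ℤ) : ℂ) * ((γ 1 0 : ℤ) : ℂ) = 1 := by
    exact_mod_cast hdet
  rw [hd, lin]
  simp only [Matrix.vecMul, dotProduct, Fin.sum_univ_two, Int.cast_add, Int.cast_mul]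
  linear_combination (-(v 0 : ℂ)) * hdet'

end Transform

theorem Zv_smul (N : ℕ) [NeZero N] (v : Fin 2 → ℤ) (hv : ¬ ∀ i, (N : ℤ) ∣ v i) (γ : SL(2, ℤ))
    (τ : ℍ) :
    Zv N v (γ • τ) = denom γ τ * Zv N (v ᵥ* (γ : Matrix (Fin 2) (Fin 2) ℤ)) τ := by
  have hj := denom_ne_zero γ τ
  have hN : (N : ℂ) ≠ 0 := Nat.cast_ne_zero.mpr (NeZero.ne N)
  set v' := v ᵥ* (γ : Matrix (Fin 2) (Fin 2) ℤ) with hv'
  have hv'' : ¬ ∀ i, (N : ℤ) ∣ v' i := Transform.not_dvd_vecMul N v hv γ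
  have e1 := zt_eq (γ • τ) (div_ne_lin N v hv (γ • τ))
  have e2 := zt_eq τ (div_ne_lin N v' hv'' τ)
  have e3 : lin (γ • τ) v / N = (lin τ v' / N) / denom γ τ := by
    rw [lin_smul, div_right_comm]
  have e4 := zt_smul γ τ (lin τ v' / N)
  have e5 := Transform.G2_smul γ τ
  have e6 := Transform.key_identity γ τ v
  rw [← hv'] at e6
  rw [Zv, Zv]
  have e7 : FF (γ • τ) (lin (γ • τ) v / N) =
      zt (γ • τ) (lin (γ • τ) v / N) - lin (γ • τ) v / N * G2 (γ • τ) := by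
    rw [e1]; ring
  rw [e7, e3, e4, e2, e5]
  have e8 : (v 0 : ℂ) = denom γ τ * (v' 0 : ℤ) - ((γ 1 0 : ℤ) : ℂ) * lin τ v' := by
    rw [← e6]; ring
  rw [e8]
  field_simp
  ring

theorem Zv_slash (N : ℕ) [NeZero N] (v : Fin 2 → ℤ) (hv : ¬ ∀ i, (N : ℤ) ∣ v i) (γ : SL(2, ℤ)) :
    Zv N v ∣[(1 : ℤ)] γ = Zv N (v ᵥ* (γ : Matrix (Fin 2) (Fin 2) ℤ)) := by
  funext τ
  rw [ModularForm.SL_slash_apply, Zv_smul N v hv γ τ, _root_.zpow_neg_one, mul_comm, ← mul_assoc,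
    inv_mul_cancel₀ (denom_ne_zero γ τ), one_mul]

end Fermat.Agent.S48.B
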