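/-
S48 (Deligne-Serre), node B = `EisensteinOne`.  Assembly.   Sub-architect: helper297.
-/
import Fermat.Agent.S48.Nodes
import Fermat.Agent.S48.B.Transform
import Fermat.Agent.S48.B.Hol
import Fermat.Agent.S48.B.QExp
import Fermat.Agent.S48.B.GaussPos
import Fermat.Agent.S48.B.GaussZero

set_option autoImplicit false

noncomputable section

namespace Fermat.Agent.S48.B

open UpperHalfPlane hiding I
open Complex Filter Topology EisensteinSeries Matrix CongruenceSubgroup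
open scoped Real MatrixGroups Manifold ModularForm

local notation "𝕢" => Function.Periodic.qParam

namespace Main

variable (ℓ : ℕ) [Fact ℓ.Prime] (χ : DirichletCharacter ℂ ℓ)

/-- `∑_x χ⁻¹(x) Z^{(0,x)}`. -/
def EE (τ : ℍ) : ℂ := ∑ x : ZMod ℓ, χ⁻¹ x * Zv ℓ ![0, (x.val : ℤ)] τ

instance : NeZero ℓ := ⟨(Fact.out : ℓ.Prime).ne_zero⟩

theorem not_dvd_val {x : ZMod ℓ} (hx : x ≠ 0) : ¬ ∀ i, (ℓ : ℤ) ∣ (![0, (x.val : ℤ)] : Fin 2 → ℤ) i := by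
  intro h
  have h1 := h 1
  simp only [Matrix.cons_val_one, Matrix.cons_val_fin_one] at h1
  have h2 : ℓ ∣ x.val := by exact_mod_cast h1
  exact hx ((ZMod.val_eq_zero x).mp (Nat.eq_zero_of_dvd_of_lt h2 (ZMod.val_lt x)))

theorem EE_slash_apply (γ : SL(2, ℤ)) (τ : ℍ) :
    (EE ℓ χ ∣[(1 : ℤ)] γ) τ =
      ∑ x : ZMod ℓ, χ⁻¹ x * Zv ℓ ((![0, (x.val : ℤ)] : Fin 2 → ℤ) ᵥ* (γ : Matrix (Fin 2) (Fin 2) ℤ)) τ := by
  rw [ModularForm.SL_slash_apply, EE, Finset.sum_mul]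
  refine Finset.sum_congr rfl fun x _ => ?_
  by_cases hx : x = 0
  · subst hx
    rw [MulChar.map_zero, zero_mul, zero_mul, zero_mul]
  · rw [Zv_smul ℓ _ (not_dvd_val ℓ hx) γ τ, _root_.zpow_neg_one]
    have hj : denom γ τ ≠ 0 := denom_ne_zero γ τ
    field_simp

theorem isBoundedAtImInfty_EE_slash (γ : SL(2, ℤ)) : IsBoundedAtImInfty (EE ℓ χ ∣[(1 : ℤ)] γ) := by
  have h : (EE ℓ χ ∣[(1 : ℤ)] γ) = ∑ x : ZMod ℓ, (χ⁻¹ x) •
      Zv ℓ ((![0, (x.val : ℤ)] : Fin 2 → ℤ) ᵥ* (γ : Matrix (Fin 2) (Fin 2) ℤ)) := by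
    funext τ
    rw [EE_slash_apply, Finset.sum_apply]
    rfl
  rw [h]
  have key : ∀ s : Finset (ZMod ℓ), IsBoundedAtImInfty (∑ x ∈ s, (χ⁻¹ x) •
      Zv ℓ ((![0, (x.val : ℤ)] : Fin 2 → ℤ) ᵥ* (γ : Matrix (Fin 2) (Fin 2) ℤ))) := by
    intro s
    induction s using Finset.induction_on with
    | empty =>
      simp only [Finset.sum_empty]
      exact (zero_form_isBoundedAtImInfty)
    | insert a s ha ih =>
      rw [Finset.sum_insert ha]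
      exact ((isBoundedAtImInfty_Zv ℓ _).const_smul_left _).add ih
  exact key _

theorem mdiff_EE : MDiff (EE ℓ χ) := by
  have h : EE ℓ χ = ∑ x : ZMod ℓ, (χ⁻¹ x) • Zv ℓ ![0, (x.val : ℤ)] := by
    funext τ
    rw [Finset.sum_apply]
    rfl
  rw [h]
  exact MDifferentiable.sum fun x _ => (mdiff_Zv ℓ _).const_smul _

theorem EE_slash_Gamma0 (γ : SL(2, ℤ)) (hγ : γ ∈ Gamma0 ℓ) :
    EE ℓ χ ∣[(1 : ℤ)] γ = χ ((γ 1 1 : ℤ) : ZMod ℓ) • EE ℓ χ := by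
  funext τ
  rw [EE_slash_apply, Pi.smul_apply, smul_eq_mul, EE, Finset.mul_sum]
  set d : ZMod ℓ := ((γ 1 1 : ℤ) : ZMod ℓ) with hd
  have hc : ((γ 1 0 : ℤ) : ZMod ℓ) = 0 := Gamma0_mem.mp hγ
  have hdet : ((γ 0 0 : ℤ) : ZMod ℓ) * d = 1 := by
    have h1 := γ.det_coe
    rw [Matrix.det_fin_two] at h1
    have h2 := congrArg (fun z : ℤ => (z : ZMod ℓ)) h1
    simp only [Int.cast_sub, Int.cast_mul, Int.cast_one, hc, mul_zero, sub_zero] at h2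
    exact h2
  have hd0 : d ≠ 0 := right_ne_zero_of_mul_eq_one hdet
  have hdu : IsUnit d := hd0.isUnit
  have hχd : χ d * χ⁻¹ d = 1 := by
    rw [MulChar.inv_apply_eq_inv', mul_inv_cancel₀]
    exact (hdu.map χ).ne_zero
  rw [← Equiv.sum_comp (Equiv.mulRight₀ d hd0)
    (fun y : ZMod ℓ => χ d * (χ⁻¹ y * Zv ℓ ![0, (y.val : ℤ)] τ))]
  refine Finset.sum_congr rfl fun x _ => ?_
  change χ⁻¹ x * _ = χ d * (χ⁻¹ (x * d) * Zv ℓ ![0, ((x * d).val : ℤ)] τ)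
  have h1 : Zv ℓ ((![0, (x.val : ℤ)] : Fin 2 → ℤ) ᵥ* (γ : Matrix (Fin 2) (Fin 2) ℤ)) =
      Zv ℓ ![0, ((x * d).val : ℤ)] := by
    refine Zv_congr ℓ fun i => ?_
    rw [← ZMod.intCast_eq_intCast_iff_dvd_sub, eq_comm]
    fin_cases i
    · simp [Matrix.vecMul, dotProduct, Fin.sum_univ_two, hc]
    · simp [Matrix.vecMul, dotProduct, Fin.sum_univ_two, hd]
  rw [h1, map_mul]
  calc χ⁻¹ x * Zv ℓ ![0, ((x * d).val : ℤ)] τ
      = (χ d * χ⁻¹ d) * (χ⁻¹ x * Zv ℓ ![0, ((x * d).val : ℤ)] τ) := by rw [hχd, one_mul]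
    _ = _ := by ring

theorem hasSum_EE (τ : ℍ) :
    HasSum (fun n : ℕ => (∑ x : ZMod ℓ, χ⁻¹ x * cZ ℓ (x.val : ℤ) n) • 𝕢 1 τ ^ n) (EE ℓ χ τ) := by
  have h := hasSum_sum (s := Finset.univ) (fun (x : ZMod ℓ) _ =>
    (hasSum_Zv_zero ℓ (x.val : ℤ) τ).mul_left (χ⁻¹ x))
  have e : (fun n : ℕ => (∑ x : ZMod ℓ, χ⁻¹ x * cZ ℓ (x.val : ℤ) n) • 𝕢 1 τ ^ n) =
      fun n : ℕ => ∑ x : ZMod ℓ, χ⁻¹ x * cZ ℓ (x.val : ℤ) n • 𝕢 1 τ ^ n := by
    funext n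
    simp only [smul_eq_mul, Finset.sum_mul, mul_assoc]
  rw [e]
  exact h

/-- The normalising constant. -/
def kap : ℂ := -(ℓ : ℂ) / (2 * π * I * gaussSum χ⁻¹ (ZMod.stdAddChar (N := ℓ)))

/-- The Eisenstein series `E_{1,χ}` (times `2ℓ`) as a modular form. -/
def E1 : ModularForm (Gamma1 ℓ) 1 where
  toFun := kap ℓ χ • EE ℓ χ
  slash_action_eq' A hA := by
    obtain ⟨A, hA, rfl⟩ := hA
    change (kap ℓ χ • EE ℓ χ) ∣[(1 : ℤ)] A = _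
    rw [ModularForm.SL_smul_slash, EE_slash_Gamma0 ℓ χ A (Gamma1_in_Gamma0 ℓ hA),
      ((Gamma1_mem ℓ A).mp hA).2.1, map_one, one_smul]
  holo' := (mdiff_EE ℓ χ).const_smul _
  bdd_at_cusps' {c} hc := by
    rw [Subgroup.IsArithmetic.isCusp_iff_isCusp_SL2Z] at hc
    rw [OnePoint.isBoundedAt_iff_forall_SL2Z hc]
    intro γ _
    rw [ModularForm.SL_smul_slash]
    exact (isBoundedAtImInfty_EE_slash ℓ χ γ).const_smul_left _

end Main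

end Fermat.Agent.S48.B

namespace Fermat.Agent.S48

open UpperHalfPlane hiding I
open Complex CongruenceSubgroup B B.Main
open scoped Real MatrixGroups ModularForm

theorem eisensteinOne : EisensteinOne := by
  intro ℓ _ hℓ χ hχ
  have : Fact ℓ.Prime := ⟨hℓ⟩
  have hg := gaussSum_inv_ne_zero ℓ χ hχ
  have hℓ0 : (ℓ : ℂ) ≠ 0 := Nat.cast_ne_zero.mpr hℓ.ne_zero
  have hΓ : (1 : ℝ) ∈ ((Gamma1 ℓ : Subgroup (GL (Fin 2) ℝ))).strictPeriods := by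
    simp [CongruenceSubgroup.strictPeriods_Gamma1]
  have hsum : ∀ τ : ℍ, HasSum (fun n : ℕ =>
      (kap ℓ χ * ∑ x : ZMod ℓ, χ⁻¹ x * cZ ℓ (x.val : ℤ) n) • Function.Periodic.qParam 1 τ ^ n)
      (E1 ℓ χ τ) := by
    intro τ
    have h := (hasSum_EE ℓ χ τ).mul_left (kap ℓ χ)
    have e : (fun n : ℕ => (kap ℓ χ * ∑ x : ZMod ℓ, χ⁻¹ x * cZ ℓ (x.val : ℤ) n) •
        Function.Periodic.qParam 1 τ ^ n) = fun n : ℕ => kap ℓ χ *
        (∑ x : ZMod ℓ, χ⁻¹ x * cZ ℓ (x.val : ℤ) n) • Function.Periodic.qParam 1 τ ^ n := by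
      funext n
      simp only [smul_eq_mul, mul_assoc]
    rw [e]
    exact h
  have hcoeff := fun n => (ModularFormClass.qExpansion_coeff_unique one_pos hΓ hsum n).symm
  refine ⟨E1 ℓ χ, ?_, ?_, ?_⟩
  · intro γ hγ
    change (kap ℓ χ • EE ℓ χ) ∣[(1 : ℤ)] γ = _ • (kap ℓ χ • EE ℓ χ)
    rw [ModularForm.SL_smul_slash, EE_slash_Gamma0 ℓ χ γ hγ, smul_comm]
  · change (qExpansion 1 (E1 ℓ χ)).coeff 0 = _
    rw [hcoeff 0, sum_char_cZ_zero ℓ χ hχ, kap]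
    have hpi : (π : ℂ) ≠ 0 := Complex.ofReal_ne_zero.mpr Real.pi_ne_zero
    field_simp
  · intro n hn
    change (qExpansion 1 (E1 ℓ χ)).coeff n = _
    rw [hcoeff n, sum_char_cZ_pos ℓ χ hχ n hn, kap]
    have hpi : (π : ℂ) ≠ 0 := Complex.ofReal_ne_zero.mpr Real.pi_ne_zero
    field_simp
    ring

end Fermat.Agent.S48
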