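/-
S48 (Deligne-Serre), node B = `EisensteinOne`.  TASK B-1.   Sub-architect: helper297.
The statements are FROZEN.  (proved by helper226)
Helper lemmas: same file, namespace `Fermat.Agent.S48.B.Summable`.

For `x ≠ 0`, `w = lin τ x`: `1/(u-w) + 1/w + u/w² = u²/(w²(u-w))` (if `u ≠ w`).  If `2‖u‖ ≤ ‖w‖` then
`‖u - w‖ ≥ ‖w‖/2`, so the norm is `≤ 2‖u‖²/‖w‖³`.  `‖w‖ ≥ r τ * ‖x‖` (Mathlib
`EisensteinSeries.summand_bound`, `EisensteinSeries.r`, `r_pos`), `∑ ‖x‖^(-3)` converges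
(`EisensteinSeries.summable_one_div_norm_rpow`, or directly `summable_norm_eisSummand (k := 3)`:
`‖eisSummand 3 x τ‖ = ‖w‖^(-3)`).  Only finitely many `x` have `‖lin τ x‖ < 2‖u‖`
(e.g. because `‖eisSummand 3 x τ‖ → 0` along cofinite: `Summable.tendsto_cofinite_zero`), so use
`Summable.of_norm_bounded_eventually`.  NOTE no hypothesis on `u` (junk values only at finitely many `x`).
-/
import Fermat.Agent.S48.B.Basic

set_option autoImplicit false

noncomputable section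

namespace Fermat.Agent.S48.B

open UpperHalfPlane hiding I
open Complex Filter Topology EisensteinSeries Matrix CongruenceSubgroup
open scoped Real MatrixGroups Manifold ModularForm

local notation "𝕢" => Function.Periodic.qParam

theorem summable_ztTerm (τ : ℍ) (u : ℂ) : Summable (ztTerm τ u) := by
  have hg : Summable fun x : Fin 2 → ℤ => ‖eisSummand 3 x τ‖ :=
    summable_norm_eisSummand (le_refl 3) τ
  have hgx : ∀ x : Fin 2 → ℤ, ‖eisSummand 3 x τ‖ = (‖lin τ x‖ ^ 3)⁻¹ := by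
    intro x
    simp only [eisSummand, lin]
    rw [_root_.zpow_neg, norm_inv, norm_zpow]
    norm_cast
  set R : ℝ := 2 * ‖u‖ + 1 with hR
  have hRpos : 0 < R := by positivity
  have hev : ∀ᶠ x : Fin 2 → ℤ in cofinite, ‖eisSummand 3 x τ‖ < (R ^ 3)⁻¹ :=
    hg.tendsto_cofinite_zero.eventually (gt_mem_nhds (by positivity))
  have hne : ∀ᶠ x : Fin 2 → ℤ in cofinite, x ≠ 0 :=
    (Set.finite_singleton (0 : Fin 2 → ℤ)).compl_mem_cofinite
  refine Summable.of_norm_bounded_eventually (hg.mul_left (2 * ‖u‖ ^ 2)) ?_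
  filter_upwards [hev, hne] with x hx hx0
  have hw0 : lin τ x ≠ 0 := fun h => hx0 ((lin_eq_zero_iff τ x).mp h)
  have hterm0 : ztTerm τ u x = 1 / (u - lin τ x) + 1 / lin τ x + u / lin τ x ^ 2 := by
    rw [ztTerm, if_neg hx0]
  rw [hgx] at hx ⊢
  rw [hterm0]
  generalize lin τ x = w at hx hw0
  have hwpos : 0 < ‖w‖ := norm_pos_iff.mpr hw0
  have hRw : R < ‖w‖ := by
    have h1 : R ^ 3 < ‖w‖ ^ 3 := (inv_lt_inv₀ (by positivity) (by positivity)).mp hx
    exact lt_of_pow_lt_pow_left₀ 3 hwpos.le h1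
  have huw : ‖w‖ / 2 ≤ ‖u - w‖ := by
    have h1 := norm_sub_norm_le w u
    rw [norm_sub_rev] at h1
    have hu := norm_nonneg u
    linarith
  have huwpos : 0 < ‖u - w‖ := by linarith
  have huw0 : u - w ≠ 0 := norm_pos_iff.mp huwpos
  have hterm : 1 / (u - w) + 1 / w + u / w ^ 2 = u ^ 2 / (w ^ 2 * (u - w)) := by
    field_simp
    ring
  rw [hterm, norm_div, norm_mul, norm_pow, norm_pow, div_le_iff₀ (by positivity)]
  have h2 : 2 * ‖u‖ ^ 2 * (‖w‖ ^ 3)⁻¹ * (‖w‖ ^ 2 * ‖u - w‖) =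
      ‖u‖ ^ 2 * (2 * ‖u - w‖ / ‖w‖) := by
    field_simp
  rw [h2]
  have h3 : 1 ≤ 2 * ‖u - w‖ / ‖w‖ := by
    rw [le_div_iff₀ hwpos]
    linarith
  nlinarith [sq_nonneg ‖u‖]

end Fermat.Agent.S48.B
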